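/-
Programme K (S52, 3-5 switch), brick B0 (helper56): explicit Klein icosahedral data.
GENERATED FILE (python generator of helper56; every identity was first verified with exact
arithmetic).  Conventions: `kf, kH, kT` Klein forms, `T^2 + H^3 = 1728 f^5`;
universal curve `y^2 = x^3 + 27 kH x + 54 kT`; `N = (xN, yN)` the rational 5-torsion point,
`M = (xM, mu * ytM)` the one defined over `Q(zeta_5)`; `tau = zeta + zeta^4` (`tau^2 + tau - 1 = 0`),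
`mu = zeta^2 - zeta^3` (`mu^2 = tau - 2`).  The fifth root of unity never occurs inside a large
polynomial identity: only `tau` and `mu` do.
-/
import Mathlib

set_option autoImplicit false
set_option linter.unusedSectionVars false
set_option maxRecDepth 100000

namespace Fermat.Agent.S52K.Klein56

variable {k : Type*} [Field k] [CharZero k]

/-- Klein's vertex form (degree 12). -/
def kf (a b : k) : k :=
  a ^ 11 * b + 11 * a ^ 6 * b ^ 6 - a * b ^ 11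

/-- Klein's face form (degree 20). -/
def kH (a b : k) : k :=
  -a ^ 20 + 228 * a ^ 15 * b ^ 5 - 494 * a ^ 10 * b ^ 10 - 228 * a ^ 5 * b ^ 15 - b ^ 20

/-- Klein's edge form (degree 30). -/
def kT (a b : k) : k :=
  a ^ 30 + 522 * a ^ 25 * b ^ 5 - 10005 * a ^ 20 * b ^ 10 - 10005 * a ^ 10 * b ^ 20 - 522 * a ^ 5 * b ^ 25 + b ^ 30

/-- x-coordinate of the rational universal 5-torsion point `N`. -/
def xN (a b : k) : k :=
  3 * a ^ 10 + 36 * a ^ 8 * b ^ 2 - 36 * a ^ 7 * b ^ 3 + 72 * a ^ 6 * b ^ 4 + 90 * a ^ 5 * b ^ 5 + 180 * a ^ 4 * b ^ 6 + 108 * a ^ 3 * b ^ 7 + 72 * a ^ 2 * b ^ 8 + 36 * a * b ^ 9 + 3 * b ^ 10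

/-- y-coordinate of `N`. -/
def yN (a b : k) : k :=
  108 * a ^ 13 * b ^ 2 + 108 * a ^ 12 * b ^ 3 + 432 * a ^ 11 * b ^ 4 + 540 * a ^ 9 * b ^ 6 + 648 * a ^ 8 * b ^ 7 + 2268 * a ^ 7 * b ^ 8 + 3132 * a ^ 6 * b ^ 9 + 2700 * a ^ 5 * b ^ 10 + 1620 * a ^ 4 * b ^ 11 + 972 * a ^ 3 * b ^ 12 + 432 * a ^ 2 * b ^ 13 + 108 * a * b ^ 14

/-- x-coordinate of the universal 5-torsion point `M` (coefficients in `Q(tau)`). -/
def xM (τ a b : k) : k :=
  (36 / 5) * a ^ 10 * τ - (57 / 5) * a ^ 10 + (396 / 5) * a ^ 5 * b ^ 5 * τ + (198 / 5) * a ^ 5 * b ^ 5 - (36 / 5) * b ^ 10 * τ - (93 / 5) * b ^ 10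

/-- `y(M) / mu`. -/
def ytM (τ a b : k) : k :=
  (108 / 5) * a ^ 15 * τ - (108 / 5) * a ^ 15 + (972 / 5) * a ^ 10 * b ^ 5 * τ - (1512 / 5) * a ^ 10 * b ^ 5 - (2484 / 5) * a ^ 5 * b ^ 10 * τ - (3456 / 5) * a ^ 5 * b ^ 10 + (216 / 5) * b ^ 15 * τ + (324 / 5) * b ^ 15

/-- first component of the symplectic gradient `(df/db, -df/da)`. -/
def g1 (a b : k) : k :=
  a ^ 11 + 66 * a ^ 6 * b ^ 5 - 11 * a * b ^ 10

/-- second component of the symplectic gradient. -/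
def g2 (a b : k) : k :=
  -11 * a ^ 10 * b - 66 * a ^ 5 * b ^ 6 + b ^ 11

/-- the (polynomial) slope of the chord through `N` and `-M`. -/
def lam (τ μ a b : k) : k :=
  (3 / 5) * a ^ 5 * τ * μ - (6 / 5) * a ^ 5 * μ + 3 * a ^ 3 * b ^ 2 * τ + 3 * a ^ 3 * b ^ 2 * μ + 9 * a ^ 3 * b ^ 2 + 3 * a ^ 2 * b ^ 3 * τ - 3 * a ^ 2 * b ^ 3 * μ + 9 * a ^ 2 * b ^ 3 - 3 * a * b ^ 4 * τ * μ - 3 * a * b ^ 4 * τ - 3 * a * b ^ 4 * μ + 6 * a * b ^ 4 + (9 / 5) * b ^ 5 * τ * μ + (12 / 5) * b ^ 5 * μ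

/-- cofactor: `(xN - xM) * sepL = 36 * kf^2`. -/
def sepL (τ a b : k) : k :=
  a ^ 12 * b ^ 2 * τ + 3 * a ^ 12 * b ^ 2 - 5 * a ^ 10 * b ^ 4 * τ - 10 * a ^ 10 * b ^ 4 + 5 * a ^ 9 * b ^ 5 * τ + 10 * a ^ 9 * b ^ 5 + 10 * a ^ 8 * b ^ 6 * τ + 15 * a ^ 8 * b ^ 6 - 14 * a ^ 7 * b ^ 7 * τ - 7 * a ^ 7 * b ^ 7 + 10 * a ^ 5 * b ^ 9 * τ - 5 * a ^ 5 * b ^ 9 - 10 * a ^ 4 * b ^ 10 * τ + 5 * a ^ 4 * b ^ 10 + 5 * a ^ 3 * b ^ 11 * τ - 5 * a ^ 3 * b ^ 11 - a ^ 2 * b ^ 12 * τ + 2 * a ^ 2 * b ^ 12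

theorem syzygy (a b : k) : kT a b ^ 2 + kH a b ^ 3 = 1728 * kf a b ^ 5 := by
  unfold kT kH kf; ring

theorem N_on (a b : k) : yN a b ^ 2 = xN a b ^ 3 + 27 * kH a b * xN a b + 54 * kT a b := by
  unfold yN xN kH kT; ring

theorem kf_smul (c a b : k) : kf (c * a) (c * b) = c ^ 12 * kf a b := by unfold kf; ring
theorem kH_smul (c a b : k) : kH (c * a) (c * b) = c ^ 20 * kH a b := by unfold kH; ring
theorem kT_smul (c a b : k) : kT (c * a) (c * b) = c ^ 30 * kT a b := by unfold kT; ring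
theorem xN_smul (c a b : k) : xN (c * a) (c * b) = c ^ 10 * xN a b := by unfold xN; ring
theorem yN_smul (c a b : k) : yN (c * a) (c * b) = c ^ 15 * yN a b := by unfold yN; ring
theorem xM_smul (τ c a b : k) : xM τ (c * a) (c * b) = c ^ 10 * xM τ a b := by unfold xM; ring
theorem ytM_smul (τ c a b : k) : ytM τ (c * a) (c * b) = c ^ 15 * ytM τ a b := by unfold ytM; ring
theorem g1_smul (c a b : k) : g1 (c * a) (c * b) = c ^ 11 * g1 a b := by unfold g1; ring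
theorem g2_smul (c a b : k) : g2 (c * a) (c * b) = c ^ 11 * g2 a b := by unfold g2; ring

/-- `det (v, g v) = -12 f(v)` (Euler). -/
theorem det_g (a b : k) : a * g2 a b - b * g1 a b = -(12 * kf a b) := by
  unfold g1 g2 kf; ring

end Fermat.Agent.S52K.Klein56
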