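/-
Programme K (S52, 3-5 switch), brick B0 (helper56): explicit Klein icosahedral data.
GENERATED FILE (python generator of helper56; every identity was first verified with exact
arithmetic).  Conventions: `kf, kH, kT` Klein forms, `T^2 + H^3 = 1728 f^5`;
universal curve `y^2 = x^3 + 27 kH x + 54 kT`; `N = (xN, yN)` the rational 5-torsion point,
`M = (xM, mu * ytM)` the one defined over `Q(zeta_5)`; `tau = zeta + zeta^4` (`tau^2 + tau - 1 = 0`),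
`mu = zeta^2 - zeta^3` (`mu^2 = tau - 2`).  The fifth root of unity never occurs inside a large
polynomial identity: only `tau` and `mu` do.
-/
import Mathlib
import Fermat.Agent.S52K.Klein56.Defs
set_option autoImplicit false
set_option linter.unusedSectionVars false
set_option maxRecDepth 100000

namespace Fermat.Agent.S52K.Klein56

variable {k : Type*} [Field k] [CharZero k]

/-- the (polynomial) slope of the tangent at `M`. -/
def ldbl (τ μ a b : k) : k :=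
  (3 / 5) * a ^ 5 * τ * μ + (24 / 5) * a ^ 5 * μ - (21 / 5) * b ^ 5 * τ * μ - (18 / 5) * b ^ 5 * μ

theorem dbl_slope (a b τ μ : k) (hτ : τ ^ 2 + τ - 1 = 0) (hμ : μ ^ 2 = τ - 2) :
    ldbl τ μ a b * (2 * (μ * ytM τ a b)) = 3 * xM τ a b ^ 2 + 27 * kH a b := by
  unfold ldbl ytM xM kH
  linear_combination ((648 / 25) * a ^ 20 * τ - (1296 / 25) * a ^ 20 + (1296 / 25) * a ^ 15 * b ^ 5 * τ - (51192 / 25) * a ^ 15 * b ^ 5 - (55728 / 25) * a ^ 10 * b ^ 10 * τ - (406944 / 25) * a ^ 10 * b ^ 10 + (105624 / 25) * a ^ 5 * b ^ 15 * τ + (15552 / 25) * a ^ 5 * b ^ 15 - (9072 / 25) * b ^ 20 * τ + (1944 / 25) * b ^ 20) * hτ + ((648 / 25) * a ^ 20 * τ ^ 2 + (4536 / 25) * a ^ 20 * τ - (5184 / 25) * a ^ 20 + (1296 / 25) * a ^ 15 * b ^ 5 * τ ^ 2 + (38232 / 25) * a ^ 15 * b ^ 5 * τ - (68688 / 25) * a ^ 15 * b ^ 5 - (55728 / 25) * a ^ 10 * b ^ 10 * τ ^ 2 - (111456 / 25) * a ^ 10 *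 b ^ 10 * τ - (111456 / 25) * a ^ 10 * b ^ 10 + (105624 / 25) * a ^ 5 * b ^ 15 * τ ^ 2 + (246888 / 25) * a ^ 5 * b ^ 15 * τ + (139968 / 25) * a ^ 5 * b ^ 15 - (9072 / 25) * b ^ 20 * τ ^ 2 - (21384 / 25) * b ^ 20 * τ - (11664 / 25) * b ^ 20) * hμ

theorem dbl_x (a b τ μ : k) (hτ : τ ^ 2 + τ - 1 = 0) (hμ : μ ^ 2 = τ - 2) :
    xM (-1 - τ) a b = ldbl τ μ a b ^ 2 - 2 * xM τ a b := by
  unfold ldbl xM
  linear_combination (-(9 / 25) * a ^ 10 * τ - (117 / 25) * a ^ 10 + (126 / 25) * a ^ 5 * b ^ 5 * τ + (738 / 25) * a ^ 5 * b ^ 5 - (441 / 25) * b ^ 10 * τ + (567 / 25) * b ^ 10) * hτ + (-(9 / 25) * a ^ 10 * τ ^ 2 - (144 / 25) * a ^ 10 * τ - (576 / 25) * a ^ 10 + (126 / 25) * a ^ 5 * b ^ 5 * τ ^ 2 + (1116 / 25) * a ^ 5 * b ^ 5 * τ + (864 / 25) * a ^ 5 * b ^ 5 - (441 / 25) * b ^ 10 * τ ^ 2 - (756 / 25) * b ^ 10 * τ - (324 / 25) * b ^ 10) * hμ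

theorem dbl_y (a b τ μ : k) (hτ : τ ^ 2 + τ - 1 = 0) (hμ : μ ^ 2 = τ - 2) :
    (-(1 + τ) * μ) * ytM (-1 - τ) a b = -(ldbl τ μ a b * (xM (-1 - τ) a b - xM τ a b) + μ * ytM τ a b) := by
  unfold ldbl xM ytM
  linear_combination ((324 / 25) * a ^ 15 * μ + (3996 / 25) * a ^ 10 * b ^ 5 * μ + (4428 / 25) * a ^ 5 * b ^ 10 * μ - (432 / 25) * b ^ 15 * μ) * hτ + (0) * hμ

/-- the conjugate `τ' = -1 - τ` satisfies the same quadratic equation. -/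
theorem tau_conj (τ : k) (hτ : τ ^ 2 + τ - 1 = 0) : (-1 - τ) ^ 2 + (-1 - τ) - 1 = 0 := by
  linear_combination hτ

/-- the conjugate `μ' = -(1 + τ) μ` satisfies `μ'^2 = τ' - 2`. -/
theorem mu_conj (τ μ : k) (hτ : τ ^ 2 + τ - 1 = 0) (hμ : μ ^ 2 = τ - 2) :
    (-(1 + τ) * μ) ^ 2 = (-1 - τ) - 2 := by
  linear_combination (τ - 1) * hτ + (1 + τ) ^ 2 * hμ

end Fermat.Agent.S52K.Klein56
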