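/-
Programme K (S52, 3-5 switch), brick B0 (helper56): explicit Klein icosahedral data.
GENERATED FILE (python generator of helper56; every identity was first verified with exact
arithmetic).  Conventions: `kf, kH, kT` Klein forms, `T^2 + H^3 = 1728 f^5`;
universal curve `y^2 = x^3 + 27 kH x + 54 kT`; `N = (xN, yN)` the rational 5-torsion point,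
`M = (xM, mu * ytM)` the one defined over `Q(zeta_5)`; `tau = zeta + zeta^4` (`tau^2 + tau - 1 = 0`),
`mu = zeta^2 - zeta^3` (`mu^2 = tau - 2`).  The fifth root of unity never occurs inside a large
polynomial identity: only `tau` and `mu` do.
-/
import Mathlib
import Fermat.Agent.S52K.Klein56.Defs
set_option autoImplicit false
set_option linter.unusedSectionVars false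
set_option maxRecDepth 100000

namespace Fermat.Agent.S52K.Klein56

variable {k : Type*} [Field k] [CharZero k]

theorem kf_S' (a b τ : k) (hτ : τ ^ 2 + τ - 1 = 0) :
    kf (-a + τ * b) (τ * a + b) = (τ - 2) ^ 6 * kf a b := by
  unfold kf
  linear_combination (a ^ 12 * τ ^ 9 - a ^ 12 * τ ^ 8 + 2 * a ^ 12 * τ ^ 7 - 3 * a ^ 12 * τ ^ 6 + 5 * a ^ 12 * τ ^ 5 + 3 * a ^ 12 * τ ^ 4 + 2 * a ^ 12 * τ ^ 3 + a ^ 12 * τ ^ 2 + a ^ 12 * τ - a ^ 11 * b * τ ^ 10 + a ^ 11 * b * τ ^ 9 + 9 * a ^ 11 * b * τ ^ 8 - 8 * a ^ 11 * b * τ ^ 7 + 17 * a ^ 11 * b * τ ^ 6 - 91 * a ^ 11 * b * τ ^ 5 + 107 * a ^ 11 * b * τ ^ 4 - 120 * a ^ 11 * b * τ ^ 3 + 167 * a ^ 11 * b * τ ^ 2 - 127 * a ^ 11 * b * τ + 65 *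 a ^ 11 * b - 11 * a ^ 10 * b ^ 2 * τ ^ 9 + 11 * a ^ 10 * b ^ 2 * τ ^ 8 + 33 * a ^ 10 * b ^ 2 * τ ^ 7 + 143 * a ^ 10 * b ^ 2 * τ ^ 6 - 110 * a ^ 10 * b ^ 2 * τ ^ 5 - 143 * a ^ 10 * b ^ 2 * τ ^ 4 + 33 * a ^ 10 * b ^ 2 * τ ^ 3 - 11 * a ^ 10 * b ^ 2 * τ ^ 2 - 11 * a ^ 10 * b ^ 2 * τ - 55 * a ^ 9 * b ^ 3 * τ ^ 8 - 165 * a ^ 9 * b ^ 3 * τ ^ 7 + 275 * a ^ 9 * b ^ 3 * τ ^ 6 + 550 * a ^ 9 * b ^ 3 * τ ^ 5 - 275 * a ^ 9 * b ^ 3 * τ ^ 4 - 165 * a ^ 9 * b ^ 3 * τ ^ 3 + 55 * a ^ 9 * b ^ 3 * τ ^ 2 + 165 * a ^ 8 * b ^ 4 * τ ^ 8 - 330 * a ^ 8 * b ^ 4 * τ ^ 7 - 825 * a ^ 8 * b ^ 4 * τ ^ 6 + 825 * a ^ 8 * b ^ 4 * τ ^ 5 + 825 * a ^ 8 * b ^ 4 * τ ^ 4 - 330 * a ^ 8 * b ^ 4 * τ ^ 3 - 165 * a ^ 8 *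 b ^ 4 * τ ^ 2 - 66 * a ^ 7 * b ^ 5 * τ ^ 9 + 66 * a ^ 7 * b ^ 5 * τ ^ 8 + 858 * a ^ 7 * b ^ 5 * τ ^ 7 - 1122 * a ^ 7 * b ^ 5 * τ ^ 6 - 1320 * a ^ 7 * b ^ 5 * τ ^ 5 + 1122 * a ^ 7 * b ^ 5 * τ ^ 4 + 858 * a ^ 7 * b ^ 5 * τ ^ 3 - 66 * a ^ 7 * b ^ 5 * τ ^ 2 - 66 * a ^ 7 * b ^ 5 * τ + 11 * a ^ 6 * b ^ 6 * τ ^ 10 - 11 * a ^ 6 * b ^ 6 * τ ^ 9 - 374 * a ^ 6 * b ^ 6 * τ ^ 8 + 363 * a ^ 6 * b ^ 6 * τ ^ 7 + 1738 * a ^ 6 * b ^ 6 * τ ^ 6 - 2299 * a ^ 6 * b ^ 6 * τ ^ 5 - 374 * a ^ 6 * b ^ 6 * τ ^ 4 - 869 * a ^ 6 * b ^ 6 * τ ^ 3 + 2310 * a ^ 6 * b ^ 6 * τ ^ 2 - 1419 * a ^ 6 * b ^ 6 * τ + 693 * a ^ 6 * b ^ 6 + 66 * a ^ 5 * b ^ 7 * τ ^ 9 - 66 * a ^ 5 * b ^ 7 * τ ^ 8 - 858 * a ^ 5 * b ^ 7 * τ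 ^ 7 + 1122 * a ^ 5 * b ^ 7 * τ ^ 6 + 1320 * a ^ 5 * b ^ 7 * τ ^ 5 - 1122 * a ^ 5 * b ^ 7 * τ ^ 4 - 858 * a ^ 5 * b ^ 7 * τ ^ 3 + 66 * a ^ 5 * b ^ 7 * τ ^ 2 + 66 * a ^ 5 * b ^ 7 * τ + 165 * a ^ 4 * b ^ 8 * τ ^ 8 - 330 * a ^ 4 * b ^ 8 * τ ^ 7 - 825 * a ^ 4 * b ^ 8 * τ ^ 6 + 825 * a ^ 4 * b ^ 8 * τ ^ 5 + 825 * a ^ 4 * b ^ 8 * τ ^ 4 - 330 * a ^ 4 * b ^ 8 * τ ^ 3 - 165 * a ^ 4 * b ^ 8 * τ ^ 2 + 55 * a ^ 3 * b ^ 9 * τ ^ 8 + 165 * a ^ 3 * b ^ 9 * τ ^ 7 - 275 * a ^ 3 * b ^ 9 * τ ^ 6 - 550 * a ^ 3 * b ^ 9 * τ ^ 5 + 275 * a ^ 3 * b ^ 9 * τ ^ 4 + 165 * a ^ 3 * b ^ 9 * τ ^ 3 - 55 * a ^ 3 * b ^ 9 * τ ^ 2 - 11 * a ^ 2 * b ^ 10 * τ ^ 9 + 11 * a ^ 2 * b ^ 10 * τ ^ 8 + 33 * a ^ 2 * b ^ 10 *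 τ ^ 7 + 143 * a ^ 2 * b ^ 10 * τ ^ 6 - 110 * a ^ 2 * b ^ 10 * τ ^ 5 - 143 * a ^ 2 * b ^ 10 * τ ^ 4 + 33 * a ^ 2 * b ^ 10 * τ ^ 3 - 11 * a ^ 2 * b ^ 10 * τ ^ 2 - 11 * a ^ 2 * b ^ 10 * τ + a * b ^ 11 * τ ^ 10 - a * b ^ 11 * τ ^ 9 - 9 * a * b ^ 11 * τ ^ 8 + 8 * a * b ^ 11 * τ ^ 7 - 17 * a * b ^ 11 * τ ^ 6 + 91 * a * b ^ 11 * τ ^ 5 - 107 * a * b ^ 11 * τ ^ 4 + 120 * a * b ^ 11 * τ ^ 3 - 167 * a * b ^ 11 * τ ^ 2 + 127 * a * b ^ 11 * τ - 65 * a * b ^ 11 + b ^ 12 * τ ^ 9 - b ^ 12 * τ ^ 8 + 2 * b ^ 12 * τ ^ 7 - 3 * b ^ 12 * τ ^ 6 + 5 * b ^ 12 * τ ^ 5 + 3 * b ^ 12 * τ ^ 4 + 2 * b ^ 12 * τ ^ 3 + b ^ 12 * τ ^ 2 + b ^ 12 * τ) * hτ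

theorem kH_S' (a b τ : k) (hτ : τ ^ 2 + τ - 1 = 0) :
    kH (-a + τ * b) (τ * a + b) = (τ - 2) ^ 10 * kH a b := by
  unfold kH
  linear_combination (-a ^ 20 * τ ^ 18 + a ^ 20 * τ ^ 17 - 2 * a ^ 20 * τ ^ 16 + 3 * a ^ 20 * τ ^ 15 - 5 * a ^ 20 * τ ^ 14 + 236 * a ^ 20 * τ ^ 13 - 241 * a ^ 20 * τ ^ 12 + 477 * a ^ 20 * τ ^ 11 - 718 * a ^ 20 * τ ^ 10 + 1195 * a ^ 20 * τ ^ 9 - 2406 * a ^ 20 * τ ^ 8 + 3581 * a ^ 20 * τ ^ 7 - 5807 * a ^ 20 * τ ^ 6 + 8428 * a ^ 20 * τ ^ 5 - 10875 * a ^ 20 * τ ^ 4 + 11011 * a ^ 20 * τ ^ 3 - 8446 * a ^ 20 * τ ^ 2 + 4097 * a ^ 20 * τ - 1023 * a ^ 20 - 20 * a ^ 19 * b * τ ^ 17 + 20 * a ^ 19 * b * τ ^ 16 - 40 * a ^ 19 * b * τ ^ 15 - 1080 * a ^ 19 * b * τ ^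 14 + 1040 * a ^ 19 * b * τ ^ 13 + 1300 * a ^ 19 * b * τ ^ 12 - 260 * a ^ 19 * b * τ ^ 11 + 1560 * a ^ 19 * b * τ ^ 10 + 3120 * a ^ 19 * b * τ ^ 9 - 1560 * a ^ 19 * b * τ ^ 8 - 260 * a ^ 19 * b * τ ^ 7 - 1300 * a ^ 19 * b * τ ^ 6 + 1040 * a ^ 19 * b * τ ^ 5 + 1080 * a ^ 19 * b * τ ^ 4 - 40 * a ^ 19 * b * τ ^ 3 - 20 * a ^ 19 * b * τ ^ 2 - 20 * a ^ 19 * b * τ - 190 * a ^ 18 * b ^ 2 * τ ^ 16 + 2470 * a ^ 18 * b ^ 2 * τ ^ 15 - 2660 * a ^ 18 * b ^ 2 * τ ^ 14 - 11970 * a ^ 18 * b ^ 2 * τ ^ 13 + 9310 * a ^ 18 * b ^ 2 * τ ^ 12 + 2660 * a ^ 18 * b ^ 2 * τ ^ 11 - 15580 * a ^ 18 * b ^ 2 * τ ^ 10 + 18240 * a ^ 18 * b ^ 2 * τ ^ 9 + 15580 * a ^ 18 * b ^ 2 * τ ^ 8 + 2660 * a ^ 18 * b ^ 2 *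 τ ^ 7 - 9310 * a ^ 18 * b ^ 2 * τ ^ 6 - 11970 * a ^ 18 * b ^ 2 * τ ^ 5 + 2660 * a ^ 18 * b ^ 2 * τ ^ 4 + 2470 * a ^ 18 * b ^ 2 * τ ^ 3 + 190 * a ^ 18 * b ^ 2 * τ ^ 2 - 2280 * a ^ 17 * b ^ 3 * τ ^ 16 + 1140 * a ^ 17 * b ^ 3 * τ ^ 15 + 30780 * a ^ 17 * b ^ 3 * τ ^ 14 - 29640 * a ^ 17 * b ^ 3 * τ ^ 13 - 59280 * a ^ 17 * b ^ 3 * τ ^ 12 + 88920 * a ^ 17 * b ^ 3 * τ ^ 11 - 44460 * a ^ 17 * b ^ 3 * τ ^ 10 - 88920 * a ^ 17 * b ^ 3 * τ ^ 9 + 44460 * a ^ 17 * b ^ 3 * τ ^ 8 + 88920 * a ^ 17 * b ^ 3 * τ ^ 7 + 59280 * a ^ 17 * b ^ 3 * τ ^ 6 - 29640 * a ^ 17 * b ^ 3 * τ ^ 5 - 30780 * a ^ 17 * b ^ 3 * τ ^ 4 + 1140 * a ^ 17 * b ^ 3 * τ ^ 3 + 2280 * a ^ 17 * b ^ 3 * τ ^ 2 + 1140 * a ^ 16 * b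 ^ 4 * τ ^ 17 - 1140 * a ^ 16 * b ^ 4 * τ ^ 16 - 31920 * a ^ 16 * b ^ 4 * τ ^ 15 + 25935 * a ^ 16 * b ^ 4 * τ ^ 14 + 181545 * a ^ 16 * b ^ 4 * τ ^ 13 - 259350 * a ^ 16 * b ^ 4 * τ ^ 12 - 77805 * a ^ 16 * b ^ 4 * τ ^ 11 + 411255 * a ^ 16 * b ^ 4 * τ ^ 10 - 177840 * a ^ 16 * b ^ 4 * τ ^ 9 - 411255 * a ^ 16 * b ^ 4 * τ ^ 8 - 77805 * a ^ 16 * b ^ 4 * τ ^ 7 + 259350 * a ^ 16 * b ^ 4 * τ ^ 6 + 181545 * a ^ 16 * b ^ 4 * τ ^ 5 - 25935 * a ^ 16 * b ^ 4 * τ ^ 4 - 31920 * a ^ 16 * b ^ 4 * τ ^ 3 + 1140 * a ^ 16 * b ^ 4 * τ ^ 2 + 1140 * a ^ 16 * b ^ 4 * τ - 228 * a ^ 15 * b ^ 5 * τ ^ 18 + 228 * a ^ 15 * b ^ 5 * τ ^ 17 + 16644 * a ^ 15 * b ^ 5 * τ ^ 16 - 16416 * a ^ 15 * b ^ 5 * τ ^ 15 - 206340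 * a ^ 15 * b ^ 5 * τ ^ 14 + 298908 * a ^ 15 * b ^ 5 * τ ^ 13 + 532152 * a ^ 15 * b ^ 5 * τ ^ 12 - 1270644 * a ^ 15 * b ^ 5 * τ ^ 11 + 246696 * a ^ 15 * b ^ 5 * τ ^ 10 + 1150260 * a ^ 15 * b ^ 5 * τ ^ 9 + 465576 * a ^ 15 * b ^ 5 * τ ^ 8 - 1978356 * a ^ 15 * b ^ 5 * τ ^ 7 + 846792 * a ^ 15 * b ^ 5 * τ ^ 6 - 1568868 * a ^ 15 * b ^ 5 * τ ^ 5 + 2686980 * a ^ 15 * b ^ 5 * τ ^ 4 - 2526240 * a ^ 15 * b ^ 5 * τ ^ 3 + 1909500 * a ^ 15 * b ^ 5 * τ ^ 2 - 933660 * a ^ 15 * b ^ 5 * τ + 233700 * a ^ 15 * b ^ 5 - 3420 * a ^ 14 * b ^ 6 * τ ^ 17 + 3420 * a ^ 14 * b ^ 6 * τ ^ 16 + 112860 * a ^ 14 * b ^ 6 * τ ^ 15 - 213180 * a ^ 14 * b ^ 6 * τ ^ 14 - 711360 * a ^ 14 * b ^ 6 * τ ^ 13 + 1704300 *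 a ^ 14 * b ^ 6 * τ ^ 12 + 696540 * a ^ 14 * b ^ 6 * τ ^ 11 - 3660540 * a ^ 14 * b ^ 6 * τ ^ 10 - 207480 * a ^ 14 * b ^ 6 * τ ^ 9 + 3660540 * a ^ 14 * b ^ 6 * τ ^ 8 + 696540 * a ^ 14 * b ^ 6 * τ ^ 7 - 1704300 * a ^ 14 * b ^ 6 * τ ^ 6 - 711360 * a ^ 14 * b ^ 6 * τ ^ 5 + 213180 * a ^ 14 * b ^ 6 * τ ^ 4 + 112860 * a ^ 14 * b ^ 6 * τ ^ 3 - 3420 * a ^ 14 * b ^ 6 * τ ^ 2 - 3420 * a ^ 14 * b ^ 6 * τ - 23940 * a ^ 13 * b ^ 7 * τ ^ 16 + 83220 * a ^ 13 * b ^ 7 * τ ^ 15 + 411540 * a ^ 13 * b ^ 7 * τ ^ 14 - 1365720 * a ^ 13 * b ^ 7 * τ ^ 13 - 1334940 * a ^ 13 * b ^ 7 * τ ^ 12 + 5493660 * a ^ 13 * b ^ 7 * τ ^ 11 + 1485420 * a ^ 13 * b ^ 7 * τ ^ 10 - 8440560 * a ^ 13 * b ^ 7 * τ ^ 9 - 1485420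 * a ^ 13 * b ^ 7 * τ ^ 8 + 5493660 * a ^ 13 * b ^ 7 * τ ^ 7 + 1334940 * a ^ 13 * b ^ 7 * τ ^ 6 - 1365720 * a ^ 13 * b ^ 7 * τ ^ 5 - 411540 * a ^ 13 * b ^ 7 * τ ^ 4 + 83220 * a ^ 13 * b ^ 7 * τ ^ 3 + 23940 * a ^ 13 * b ^ 7 * τ ^ 2 - 22230 * a ^ 12 * b ^ 8 * τ ^ 16 - 81510 * a ^ 12 * b ^ 8 * τ ^ 15 + 652080 * a ^ 12 * b ^ 8 * τ ^ 14 + 822510 * a ^ 12 * b ^ 8 * τ ^ 13 - 4838730 * a ^ 12 * b ^ 8 * τ ^ 12 - 2652780 * a ^ 12 * b ^ 8 * τ ^ 11 + 12626640 * a ^ 12 * b ^ 8 * τ ^ 10 + 3467880 * a ^ 12 * b ^ 8 * τ ^ 9 - 12626640 * a ^ 12 * b ^ 8 * τ ^ 8 - 2652780 * a ^ 12 * b ^ 8 * τ ^ 7 + 4838730 * a ^ 12 * b ^ 8 * τ ^ 6 + 822510 * a ^ 12 * b ^ 8 * τ ^ 5 - 652080 * a ^ 12 * b ^ 8 * τ ^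 4 - 81510 * a ^ 12 * b ^ 8 * τ ^ 3 + 22230 * a ^ 12 * b ^ 8 * τ ^ 2 + 4940 * a ^ 11 * b ^ 9 * τ ^ 17 - 4940 * a ^ 11 * b ^ 9 * τ ^ 16 - 212420 * a ^ 11 * b ^ 9 * τ ^ 15 - 103740 * a ^ 11 * b ^ 9 * τ ^ 14 + 2558920 * a ^ 11 * b ^ 9 * τ ^ 13 + 1901900 * a ^ 11 * b ^ 9 * τ ^ 12 - 11791780 * a ^ 11 * b ^ 9 * τ ^ 11 - 5053620 * a ^ 11 * b ^ 9 * τ ^ 10 + 19236360 * a ^ 11 * b ^ 9 * τ ^ 9 + 5053620 * a ^ 11 * b ^ 9 * τ ^ 8 - 11791780 * a ^ 11 * b ^ 9 * τ ^ 7 - 1901900 * a ^ 11 * b ^ 9 * τ ^ 6 + 2558920 * a ^ 11 * b ^ 9 * τ ^ 5 + 103740 * a ^ 11 * b ^ 9 * τ ^ 4 - 212420 * a ^ 11 * b ^ 9 * τ ^ 3 + 4940 * a ^ 11 * b ^ 9 * τ ^ 2 + 4940 * a ^ 11 * b ^ 9 * τ - 494 * a ^ 10 * b ^ 10 * τ ^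 18 + 494 * a ^ 10 * b ^ 10 * τ ^ 17 + 48412 * a ^ 10 * b ^ 10 * τ ^ 16 - 47918 * a ^ 10 * b ^ 10 * τ ^ 15 - 904020 * a ^ 10 * b ^ 10 * τ ^ 14 - 513266 * a ^ 10 * b ^ 10 * τ ^ 13 + 6722846 * a ^ 10 * b ^ 10 * τ ^ 12 + 4175288 * a ^ 10 * b ^ 10 * τ ^ 11 - 19237842 * a ^ 10 * b ^ 10 * τ ^ 10 - 5930470 * a ^ 10 * b ^ 10 * τ ^ 9 + 17694586 * a ^ 10 * b ^ 10 * τ ^ 8 + 5708664 * a ^ 10 * b ^ 10 * τ ^ 7 - 9710558 * a ^ 10 * b ^ 10 * τ ^ 6 + 3533582 * a ^ 10 * b ^ 10 * τ ^ 5 - 4470700 * a ^ 10 * b ^ 10 * τ ^ 4 + 5390034 * a ^ 10 * b ^ 10 * τ ^ 3 - 4221724 * a ^ 10 * b ^ 10 * τ ^ 2 + 2023918 * a ^ 10 * b ^ 10 * τ - 505362 * a ^ 10 * b ^ 10 - 4940 * a ^ 9 * b ^ 11 * τ ^ 17 + 4940 * a ^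 9 * b ^ 11 * τ ^ 16 + 212420 * a ^ 9 * b ^ 11 * τ ^ 15 + 103740 * a ^ 9 * b ^ 11 * τ ^ 14 - 2558920 * a ^ 9 * b ^ 11 * τ ^ 13 - 1901900 * a ^ 9 * b ^ 11 * τ ^ 12 + 11791780 * a ^ 9 * b ^ 11 * τ ^ 11 + 5053620 * a ^ 9 * b ^ 11 * τ ^ 10 - 19236360 * a ^ 9 * b ^ 11 * τ ^ 9 - 5053620 * a ^ 9 * b ^ 11 * τ ^ 8 + 11791780 * a ^ 9 * b ^ 11 * τ ^ 7 + 1901900 * a ^ 9 * b ^ 11 * τ ^ 6 - 2558920 * a ^ 9 * b ^ 11 * τ ^ 5 - 103740 * a ^ 9 * b ^ 11 * τ ^ 4 + 212420 * a ^ 9 * b ^ 11 * τ ^ 3 - 4940 * a ^ 9 * b ^ 11 * τ ^ 2 - 4940 * a ^ 9 * b ^ 11 * τ - 22230 * a ^ 8 * b ^ 12 * τ ^ 16 - 81510 * a ^ 8 * b ^ 12 * τ ^ 15 + 652080 * a ^ 8 * b ^ 12 * τ ^ 14 + 822510 * a ^ 8 * b ^ 12 * τ ^ 13 - 4838730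 * a ^ 8 * b ^ 12 * τ ^ 12 - 2652780 * a ^ 8 * b ^ 12 * τ ^ 11 + 12626640 * a ^ 8 * b ^ 12 * τ ^ 10 + 3467880 * a ^ 8 * b ^ 12 * τ ^ 9 - 12626640 * a ^ 8 * b ^ 12 * τ ^ 8 - 2652780 * a ^ 8 * b ^ 12 * τ ^ 7 + 4838730 * a ^ 8 * b ^ 12 * τ ^ 6 + 822510 * a ^ 8 * b ^ 12 * τ ^ 5 - 652080 * a ^ 8 * b ^ 12 * τ ^ 4 - 81510 * a ^ 8 * b ^ 12 * τ ^ 3 + 22230 * a ^ 8 * b ^ 12 * τ ^ 2 + 23940 * a ^ 7 * b ^ 13 * τ ^ 16 - 83220 * a ^ 7 * b ^ 13 * τ ^ 15 - 411540 * a ^ 7 * b ^ 13 * τ ^ 14 + 1365720 * a ^ 7 * b ^ 13 * τ ^ 13 + 1334940 * a ^ 7 * b ^ 13 * τ ^ 12 - 5493660 * a ^ 7 * b ^ 13 * τ ^ 11 - 1485420 * a ^ 7 * b ^ 13 * τ ^ 10 + 8440560 * a ^ 7 * b ^ 13 * τ ^ 9 + 1485420 * a ^ 7 * b ^ 13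 * τ ^ 8 - 5493660 * a ^ 7 * b ^ 13 * τ ^ 7 - 1334940 * a ^ 7 * b ^ 13 * τ ^ 6 + 1365720 * a ^ 7 * b ^ 13 * τ ^ 5 + 411540 * a ^ 7 * b ^ 13 * τ ^ 4 - 83220 * a ^ 7 * b ^ 13 * τ ^ 3 - 23940 * a ^ 7 * b ^ 13 * τ ^ 2 - 3420 * a ^ 6 * b ^ 14 * τ ^ 17 + 3420 * a ^ 6 * b ^ 14 * τ ^ 16 + 112860 * a ^ 6 * b ^ 14 * τ ^ 15 - 213180 * a ^ 6 * b ^ 14 * τ ^ 14 - 711360 * a ^ 6 * b ^ 14 * τ ^ 13 + 1704300 * a ^ 6 * b ^ 14 * τ ^ 12 + 696540 * a ^ 6 * b ^ 14 * τ ^ 11 - 3660540 * a ^ 6 * b ^ 14 * τ ^ 10 - 207480 * a ^ 6 * b ^ 14 * τ ^ 9 + 3660540 * a ^ 6 * b ^ 14 * τ ^ 8 + 696540 * a ^ 6 * b ^ 14 * τ ^ 7 - 1704300 * a ^ 6 * b ^ 14 * τ ^ 6 - 711360 * a ^ 6 * b ^ 14 * τ ^ 5 + 213180 * a ^ 6 * b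 ^ 14 * τ ^ 4 + 112860 * a ^ 6 * b ^ 14 * τ ^ 3 - 3420 * a ^ 6 * b ^ 14 * τ ^ 2 - 3420 * a ^ 6 * b ^ 14 * τ + 228 * a ^ 5 * b ^ 15 * τ ^ 18 - 228 * a ^ 5 * b ^ 15 * τ ^ 17 - 16644 * a ^ 5 * b ^ 15 * τ ^ 16 + 16416 * a ^ 5 * b ^ 15 * τ ^ 15 + 206340 * a ^ 5 * b ^ 15 * τ ^ 14 - 298908 * a ^ 5 * b ^ 15 * τ ^ 13 - 532152 * a ^ 5 * b ^ 15 * τ ^ 12 + 1270644 * a ^ 5 * b ^ 15 * τ ^ 11 - 246696 * a ^ 5 * b ^ 15 * τ ^ 10 - 1150260 * a ^ 5 * b ^ 15 * τ ^ 9 - 465576 * a ^ 5 * b ^ 15 * τ ^ 8 + 1978356 * a ^ 5 * b ^ 15 * τ ^ 7 - 846792 * a ^ 5 * b ^ 15 * τ ^ 6 + 1568868 * a ^ 5 * b ^ 15 * τ ^ 5 - 2686980 * a ^ 5 * b ^ 15 * τ ^ 4 + 2526240 * a ^ 5 * b ^ 15 * τ ^ 3 - 1909500 * a ^ 5 * b ^ 15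 * τ ^ 2 + 933660 * a ^ 5 * b ^ 15 * τ - 233700 * a ^ 5 * b ^ 15 + 1140 * a ^ 4 * b ^ 16 * τ ^ 17 - 1140 * a ^ 4 * b ^ 16 * τ ^ 16 - 31920 * a ^ 4 * b ^ 16 * τ ^ 15 + 25935 * a ^ 4 * b ^ 16 * τ ^ 14 + 181545 * a ^ 4 * b ^ 16 * τ ^ 13 - 259350 * a ^ 4 * b ^ 16 * τ ^ 12 - 77805 * a ^ 4 * b ^ 16 * τ ^ 11 + 411255 * a ^ 4 * b ^ 16 * τ ^ 10 - 177840 * a ^ 4 * b ^ 16 * τ ^ 9 - 411255 * a ^ 4 * b ^ 16 * τ ^ 8 - 77805 * a ^ 4 * b ^ 16 * τ ^ 7 + 259350 * a ^ 4 * b ^ 16 * τ ^ 6 + 181545 * a ^ 4 * b ^ 16 * τ ^ 5 - 25935 * a ^ 4 * b ^ 16 * τ ^ 4 - 31920 * a ^ 4 * b ^ 16 * τ ^ 3 + 1140 * a ^ 4 * b ^ 16 * τ ^ 2 + 1140 * a ^ 4 * b ^ 16 * τ + 2280 * a ^ 3 * b ^ 17 * τ ^ 16 - 1140 * a ^ 3 * b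 ^ 17 * τ ^ 15 - 30780 * a ^ 3 * b ^ 17 * τ ^ 14 + 29640 * a ^ 3 * b ^ 17 * τ ^ 13 + 59280 * a ^ 3 * b ^ 17 * τ ^ 12 - 88920 * a ^ 3 * b ^ 17 * τ ^ 11 + 44460 * a ^ 3 * b ^ 17 * τ ^ 10 + 88920 * a ^ 3 * b ^ 17 * τ ^ 9 - 44460 * a ^ 3 * b ^ 17 * τ ^ 8 - 88920 * a ^ 3 * b ^ 17 * τ ^ 7 - 59280 * a ^ 3 * b ^ 17 * τ ^ 6 + 29640 * a ^ 3 * b ^ 17 * τ ^ 5 + 30780 * a ^ 3 * b ^ 17 * τ ^ 4 - 1140 * a ^ 3 * b ^ 17 * τ ^ 3 - 2280 * a ^ 3 * b ^ 17 * τ ^ 2 - 190 * a ^ 2 * b ^ 18 * τ ^ 16 + 2470 * a ^ 2 * b ^ 18 * τ ^ 15 - 2660 * a ^ 2 * b ^ 18 * τ ^ 14 - 11970 * a ^ 2 * b ^ 18 * τ ^ 13 + 9310 * a ^ 2 * b ^ 18 * τ ^ 12 + 2660 * a ^ 2 * b ^ 18 * τ ^ 11 - 15580 * a ^ 2 * b ^ 18 * τ ^ 10 + 18240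 * a ^ 2 * b ^ 18 * τ ^ 9 + 15580 * a ^ 2 * b ^ 18 * τ ^ 8 + 2660 * a ^ 2 * b ^ 18 * τ ^ 7 - 9310 * a ^ 2 * b ^ 18 * τ ^ 6 - 11970 * a ^ 2 * b ^ 18 * τ ^ 5 + 2660 * a ^ 2 * b ^ 18 * τ ^ 4 + 2470 * a ^ 2 * b ^ 18 * τ ^ 3 + 190 * a ^ 2 * b ^ 18 * τ ^ 2 + 20 * a * b ^ 19 * τ ^ 17 - 20 * a * b ^ 19 * τ ^ 16 + 40 * a * b ^ 19 * τ ^ 15 + 1080 * a * b ^ 19 * τ ^ 14 - 1040 * a * b ^ 19 * τ ^ 13 - 1300 * a * b ^ 19 * τ ^ 12 + 260 * a * b ^ 19 * τ ^ 11 - 1560 * a * b ^ 19 * τ ^ 10 - 3120 * a * b ^ 19 * τ ^ 9 + 1560 * a * b ^ 19 * τ ^ 8 + 260 * a * b ^ 19 * τ ^ 7 + 1300 * a * b ^ 19 * τ ^ 6 - 1040 * a * b ^ 19 * τ ^ 5 - 1080 * a * b ^ 19 * τ ^ 4 + 40 * a * b ^ 19 * τ ^ 3 + 20 * a * b ^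 19 * τ ^ 2 + 20 * a * b ^ 19 * τ - b ^ 20 * τ ^ 18 + b ^ 20 * τ ^ 17 - 2 * b ^ 20 * τ ^ 16 + 3 * b ^ 20 * τ ^ 15 - 5 * b ^ 20 * τ ^ 14 + 236 * b ^ 20 * τ ^ 13 - 241 * b ^ 20 * τ ^ 12 + 477 * b ^ 20 * τ ^ 11 - 718 * b ^ 20 * τ ^ 10 + 1195 * b ^ 20 * τ ^ 9 - 2406 * b ^ 20 * τ ^ 8 + 3581 * b ^ 20 * τ ^ 7 - 5807 * b ^ 20 * τ ^ 6 + 8428 * b ^ 20 * τ ^ 5 - 10875 * b ^ 20 * τ ^ 4 + 11011 * b ^ 20 * τ ^ 3 - 8446 * b ^ 20 * τ ^ 2 + 4097 * b ^ 20 * τ - 1023 * b ^ 20) * hτ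

theorem xM_S' (a b τ : k) (hτ : τ ^ 2 + τ - 1 = 0) :
    xM τ (-a + τ * b) (τ * a + b) = (τ - 2) ^ 5 * xN a b := by
  unfold xM xN
  linear_combination (-(36 / 5) * a ^ 10 * τ ^ 9 - (57 / 5) * a ^ 10 * τ ^ 8 + (21 / 5) * a ^ 10 * τ ^ 7 - (78 / 5) * a ^ 10 * τ ^ 6 + (99 / 5) * a ^ 10 * τ ^ 5 - (573 / 5) * a ^ 10 * τ ^ 4 + (459 / 5) * a ^ 10 * τ ^ 3 - (882 / 5) * a ^ 10 * τ ^ 2 + (741 / 5) * a ^ 10 * τ - (423 / 5) * a ^ 10 - 72 * a ^ 9 * b * τ ^ 8 - 114 * a ^ 9 * b * τ ^ 7 + 42 * a ^ 9 * b * τ ^ 6 + 240 * a ^ 9 * b * τ ^ 5 - 156 * a ^ 9 * b * τ ^ 3 - 42 * a ^ 9 * b * τ ^ 2 - 114 * a ^ 9 * b * τ - 324 * a ^ 8 * b ^ 2 * τ ^ 7 - 1305 * a ^ 8 * b ^ 2 * τ ^ 6 + 585 * a ^ 8 * b ^ 2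 * τ ^ 5 + 90 * a ^ 8 * b ^ 2 * τ ^ 4 + 1449 * a ^ 8 * b ^ 2 * τ ^ 3 - 1791 * a ^ 8 * b ^ 2 * τ ^ 2 + 1728 * a ^ 8 * b ^ 2 * τ - 1152 * a ^ 8 * b ^ 2 + 792 * a ^ 7 * b ^ 3 * τ ^ 7 - 1260 * a ^ 7 * b ^ 3 * τ ^ 6 - 4140 * a ^ 7 * b ^ 3 * τ ^ 5 + 900 * a ^ 7 * b ^ 3 * τ ^ 4 - 1044 * a ^ 7 * b ^ 3 * τ ^ 3 + 2700 * a ^ 7 * b ^ 3 * τ ^ 2 - 1728 * a ^ 7 * b ^ 3 * τ + 1152 * a ^ 7 * b ^ 3 - 396 * a ^ 6 * b ^ 4 * τ ^ 8 + 198 * a ^ 6 * b ^ 4 * τ ^ 7 + 3366 * a ^ 6 * b ^ 4 * τ ^ 6 - 2700 * a ^ 6 * b ^ 4 * τ ^ 5 - 5760 * a ^ 6 * b ^ 4 * τ ^ 4 + 540 * a ^ 6 * b ^ 4 * τ ^ 3 - 4014 * a ^ 6 * b ^ 4 * τ ^ 2 + 3654 * a ^ 6 * b ^ 4 * τ - 2304 * a ^ 6 * b ^ 4 + (396 / 5) * a ^ 5 * b ^ 5 * τ ^ 9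 - (198 / 5) * a ^ 5 * b ^ 5 * τ ^ 8 - (9306 / 5) * a ^ 5 * b ^ 5 * τ ^ 7 + (4158 / 5) * a ^ 5 * b ^ 5 * τ ^ 6 + (26136 / 5) * a ^ 5 * b ^ 5 * τ ^ 5 - (20322 / 5) * a ^ 5 * b ^ 5 * τ ^ 4 - (2664 / 5) * a ^ 5 * b ^ 5 * τ ^ 3 - (32958 / 5) * a ^ 5 * b ^ 5 * τ ^ 2 + (22194 / 5) * a ^ 5 * b ^ 5 * τ - (14202 / 5) * a ^ 5 * b ^ 5 + 396 * a ^ 4 * b ^ 6 * τ ^ 8 - 198 * a ^ 4 * b ^ 6 * τ ^ 7 - 3366 * a ^ 4 * b ^ 6 * τ ^ 6 + 2700 * a ^ 4 * b ^ 6 * τ ^ 5 - 540 * a ^ 4 * b ^ 6 * τ ^ 4 + 5508 * a ^ 4 * b ^ 6 * τ ^ 3 - 12114 * a ^ 4 * b ^ 6 * τ ^ 2 + 8442 * a ^ 4 * b ^ 6 * τ - 5760 * a ^ 4 * b ^ 6 + 792 * a ^ 3 * b ^ 7 * τ ^ 7 - 1260 * a ^ 3 * b ^ 7 * τ ^ 6 - 540 * a ^ 3 * b ^ 7 * τ ^ 5 -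 2700 * a ^ 3 * b ^ 7 * τ ^ 4 + 6012 * a ^ 3 * b ^ 7 * τ ^ 3 - 6516 * a ^ 3 * b ^ 7 * τ ^ 2 + 5184 * a ^ 3 * b ^ 7 * τ - 3456 * a ^ 3 * b ^ 7 + 324 * a ^ 2 * b ^ 8 * τ ^ 7 - 45 * a ^ 2 * b ^ 8 * τ ^ 6 + 765 * a ^ 2 * b ^ 8 * τ ^ 5 - 2790 * a ^ 2 * b ^ 8 * τ ^ 4 + 2493 * a ^ 2 * b ^ 8 * τ ^ 3 - 3771 * a ^ 2 * b ^ 8 * τ ^ 2 + 3456 * a ^ 2 * b ^ 8 * τ - 2304 * a ^ 2 * b ^ 8 - 72 * a * b ^ 9 * τ ^ 8 + 186 * a * b ^ 9 * τ ^ 7 - 258 * a * b ^ 9 * τ ^ 6 + 840 * a * b ^ 9 * τ ^ 5 - 900 * a * b ^ 9 * τ ^ 4 + 1308 * a * b ^ 9 * τ ^ 3 - 2046 * a * b ^ 9 * τ ^ 2 + 1914 * a * b ^ 9 * τ - 1152 * a * b ^ 9 + (36 / 5) * b ^ 10 * τ ^ 9 - (93 / 5) * b ^ 10 * τ ^ 8 + (129 / 5) * b ^ 10 * τ ^ 7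 - (222 / 5) * b ^ 10 * τ ^ 6 + (351 / 5) * b ^ 10 * τ ^ 5 - (177 / 5) * b ^ 10 * τ ^ 4 + (711 / 5) * b ^ 10 * τ ^ 3 - (738 / 5) * b ^ 10 * τ ^ 2 + (849 / 5) * b ^ 10 * τ - (387 / 5) * b ^ 10) * hτ

theorem xN_S' (a b τ : k) (hτ : τ ^ 2 + τ - 1 = 0) :
    xN (-a + τ * b) (τ * a + b) = (τ - 2) ^ 5 * xM τ a b := by
  unfold xM xN
  linear_combination (3 * a ^ 10 * τ ^ 8 - 39 * a ^ 10 * τ ^ 7 + 114 * a ^ 10 * τ ^ 6 - 261 * a ^ 10 * τ ^ 5 + (2739 / 5) * a ^ 10 * τ ^ 4 - (4077 / 5) * a ^ 10 * τ ^ 3 + (5166 / 5) * a ^ 10 * τ ^ 2 - (3903 / 5) * a ^ 10 * τ + (1809 / 5) * a ^ 10 + 36 * a ^ 9 * b * τ ^ 8 - 150 * a ^ 9 * b * τ ^ 7 + 186 * a ^ 9 * b * τ ^ 6 - 480 * a ^ 9 * b * τ ^ 5 + 360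 * a ^ 9 * b * τ ^ 4 - 192 * a ^ 9 * b * τ ^ 3 - 150 * a ^ 9 * b * τ ^ 2 - 42 * a ^ 9 * b * τ + 72 * a ^ 8 * b ^ 2 * τ ^ 8 - 72 * a ^ 8 * b ^ 2 * τ ^ 7 + 207 * a ^ 8 * b ^ 2 * τ ^ 6 - 207 * a ^ 8 * b ^ 2 * τ ^ 5 - 810 * a ^ 8 * b ^ 2 * τ ^ 4 + 1341 * a ^ 8 * b ^ 2 * τ ^ 3 - 171 * a ^ 8 * b ^ 2 * τ ^ 2 - 144 * a ^ 8 * b ^ 2 * τ - 36 * a ^ 8 * b ^ 2 + 108 * a ^ 7 * b ^ 3 * τ ^ 8 - 252 * a ^ 7 * b ^ 3 * τ ^ 7 + 288 * a ^ 7 * b ^ 3 * τ ^ 6 + 828 * a ^ 7 * b ^ 3 * τ ^ 5 - 2520 * a ^ 7 * b ^ 3 * τ ^ 4 - 1116 * a ^ 7 * b ^ 3 * τ ^ 3 + 1584 * a ^ 7 * b ^ 3 * τ ^ 2 - 36 * a ^ 7 * b ^ 3 * τ - 36 * a ^ 7 * b ^ 3 + 180 * a ^ 6 * b ^ 4 * τ ^ 8 + 126 * a ^ 6 * b ^ 4 * τ ^ 7 - 1170 * a ^ 6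 * b ^ 4 * τ ^ 6 + 3276 * a ^ 6 * b ^ 4 * τ ^ 5 + 1080 * a ^ 6 * b ^ 4 * τ ^ 4 - 3780 * a ^ 6 * b ^ 4 * τ ^ 3 - 1422 * a ^ 6 * b ^ 4 * τ ^ 2 + 630 * a ^ 6 * b ^ 4 * τ - 72 * a ^ 6 * b ^ 4 + 90 * a ^ 5 * b ^ 5 * τ ^ 8 + 558 * a ^ 5 * b ^ 5 * τ ^ 7 - 1206 * a ^ 5 * b ^ 5 * τ ^ 6 - 2700 * a ^ 5 * b ^ 5 * τ ^ 5 + (36954 / 5) * a ^ 5 * b ^ 5 * τ ^ 4 - (7092 / 5) * a ^ 5 * b ^ 5 * τ ^ 3 + (306 / 5) * a ^ 5 * b ^ 5 * τ ^ 2 - (5958 / 5) * a ^ 5 * b ^ 5 * τ - (5886 / 5) * a ^ 5 * b ^ 5 + 72 * a ^ 4 * b ^ 6 * τ ^ 8 + 630 * a ^ 4 * b ^ 6 * τ ^ 7 + 1422 * a ^ 4 * b ^ 6 * τ ^ 6 - 3780 * a ^ 4 * b ^ 6 * τ ^ 5 - 1080 * a ^ 4 * b ^ 6 * τ ^ 4 + 3276 * a ^ 4 * b ^ 6 * τ ^ 3 + 1170 * a ^ 4 * b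 ^ 6 * τ ^ 2 + 126 * a ^ 4 * b ^ 6 * τ - 180 * a ^ 4 * b ^ 6 - 36 * a ^ 3 * b ^ 7 * τ ^ 8 + 36 * a ^ 3 * b ^ 7 * τ ^ 7 + 1584 * a ^ 3 * b ^ 7 * τ ^ 6 + 1116 * a ^ 3 * b ^ 7 * τ ^ 5 - 2520 * a ^ 3 * b ^ 7 * τ ^ 4 - 828 * a ^ 3 * b ^ 7 * τ ^ 3 + 288 * a ^ 3 * b ^ 7 * τ ^ 2 + 252 * a ^ 3 * b ^ 7 * τ + 108 * a ^ 3 * b ^ 7 + 36 * a ^ 2 * b ^ 8 * τ ^ 8 - 144 * a ^ 2 * b ^ 8 * τ ^ 7 + 171 * a ^ 2 * b ^ 8 * τ ^ 6 + 1341 * a ^ 2 * b ^ 8 * τ ^ 5 + 810 * a ^ 2 * b ^ 8 * τ ^ 4 - 207 * a ^ 2 * b ^ 8 * τ ^ 3 - 207 * a ^ 2 * b ^ 8 * τ ^ 2 - 72 * a ^ 2 * b ^ 8 * τ - 72 * a ^ 2 * b ^ 8 + 42 * a * b ^ 9 * τ ^ 7 - 150 * a * b ^ 9 * τ ^ 6 + 192 * a * b ^ 9 * τ ^ 5 + 360 * a * b ^ 9 * τ ^ 4 + 480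 * a * b ^ 9 * τ ^ 3 + 186 * a * b ^ 9 * τ ^ 2 + 150 * a * b ^ 9 * τ + 36 * a * b ^ 9 + 3 * b ^ 10 * τ ^ 8 - 3 * b ^ 10 * τ ^ 7 + 42 * b ^ 10 * τ ^ 6 - 81 * b ^ 10 * τ ^ 5 + (1011 / 5) * b ^ 10 * τ ^ 4 - (1233 / 5) * b ^ 10 * τ ^ 3 + (3654 / 5) * b ^ 10 * τ ^ 2 - (3507 / 5) * b ^ 10 * τ + (2961 / 5) * b ^ 10) * hτ

theorem ytM_S' (a b τ : k) (hτ : τ ^ 2 + τ - 1 = 0) :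
    ytM τ (-a + τ * b) (τ * a + b) = -((τ - 2) ^ 7 * yN a b) := by
  unfold ytM yN
  linear_combination ((216 / 5) * a ^ 15 * τ ^ 14 + (108 / 5) * a ^ 15 * τ ^ 13 + (108 / 5) * a ^ 15 * τ ^ 12 + (108 / 5) * a ^ 15 * τ ^ 10 + (2376 / 5) * a ^ 15 * τ ^ 9 + (1188 / 5) * a ^ 15 * τ ^ 8 + (1188 / 5) * a ^ 15 * τ ^ 7 + (1188 / 5) * a ^ 15 * τ ^ 5 - (216 / 5) * a ^ 15 * τ ^ 4 - (108 / 5) * a ^ 15 * τ ^ 3 - (108 / 5) * a ^ 15 * τ ^ 2 - (108 / 5) * a ^ 15 + 648 * a ^ 14 * b * τ ^ 13 + 324 * a ^ 14 * b * τ ^ 12 + 324 * a ^ 14 * b * τ ^ 11 - 2484 * a ^ 14 * b * τ ^ 10 - 648 * a ^ 14 * b * τ ^ 9 + 3132 * a ^ 14 * b * τ ^ 8 + 3132 * a ^ 14 * b * τ ^ 7 + 1188 * a ^ 14 * b * τ ^ 5 + 1836 *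 a ^ 14 * b * τ ^ 4 + 324 * a ^ 14 * b * τ ^ 3 + 324 * a ^ 14 * b * τ + 4536 * a ^ 13 * b ^ 2 * τ ^ 12 + 7236 * a ^ 13 * b ^ 2 * τ ^ 11 + 4212 * a ^ 13 * b ^ 2 * τ ^ 10 - 21816 * a ^ 13 * b ^ 2 * τ ^ 9 - 8532 * a ^ 13 * b ^ 2 * τ ^ 8 + 9072 * a ^ 13 * b ^ 2 * τ ^ 7 + 22248 * a ^ 13 * b ^ 2 * τ ^ 6 - 26676 * a ^ 13 * b ^ 2 * τ ^ 5 + 37692 * a ^ 13 * b ^ 2 * τ ^ 4 - 40176 * a ^ 13 * b ^ 2 * τ ^ 3 + 49572 * a ^ 13 * b ^ 2 * τ ^ 2 - 34560 * a ^ 13 * b ^ 2 * τ + 13824 * a ^ 13 * b ^ 2 - 4968 * a ^ 12 * b ^ 3 * τ ^ 12 + 17712 * a ^ 12 * b ^ 3 * τ ^ 11 + 56484 * a ^ 12 * b ^ 3 * τ ^ 10 + 30348 * a ^ 12 * b ^ 3 * τ ^ 9 - 85644 * a ^ 12 * b ^ 3 * τ ^ 8 - 62856 * a ^ 12 * b ^ 3 * τ ^ 7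 + 73116 * a ^ 12 * b ^ 3 * τ ^ 6 - 9180 * a ^ 12 * b ^ 3 * τ ^ 5 + 12744 * a ^ 12 * b ^ 3 * τ ^ 4 - 32292 * a ^ 12 * b ^ 3 * τ ^ 3 + 54864 * a ^ 12 * b ^ 3 * τ ^ 2 - 34560 * a ^ 12 * b ^ 3 * τ + 13824 * a ^ 12 * b ^ 3 + 2484 * a ^ 11 * b ^ 4 * τ ^ 13 + 972 * a ^ 11 * b ^ 4 * τ ^ 12 - 48168 * a ^ 11 * b ^ 4 * τ ^ 11 + 38988 * a ^ 11 * b ^ 4 * τ ^ 10 + 224856 * a ^ 11 * b ^ 4 * τ ^ 9 + 165996 * a ^ 11 * b ^ 4 * τ ^ 8 - 302724 * a ^ 11 * b ^ 4 * τ ^ 7 - 62640 * a ^ 11 * b ^ 4 * τ ^ 6 + 46116 * a ^ 11 * b ^ 4 * τ ^ 5 + 117828 * a ^ 11 * b ^ 4 * τ ^ 4 - 200988 * a ^ 11 * b ^ 4 * τ ^ 3 + 207900 * a ^ 11 * b ^ 4 * τ ^ 2 - 136728 * a ^ 11 * b ^ 4 * τ + 55296 * a ^ 11 * b ^ 4 - (2484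 / 5) * a ^ 10 * b ^ 5 * τ ^ 14 - (972 / 5) * a ^ 10 * b ^ 5 * τ ^ 13 + (122688 / 5) * a ^ 10 * b ^ 5 * τ ^ 12 + 9828 * a ^ 10 * b ^ 5 * τ ^ 11 - (1044252 / 5) * a ^ 10 * b ^ 5 * τ ^ 10 - (58104 / 5) * a ^ 10 * b ^ 5 * τ ^ 9 + (3348648 / 5) * a ^ 10 * b ^ 5 * τ ^ 8 + (1761048 / 5) * a ^ 10 * b ^ 5 * τ ^ 7 - 521640 * a ^ 10 * b ^ 5 * τ ^ 6 - (425952 / 5) * a ^ 10 * b ^ 5 * τ ^ 5 + (582444 / 5) * a ^ 10 * b ^ 5 * τ ^ 4 - (24408 / 5) * a ^ 10 * b ^ 5 * τ ^ 3 - (73548 / 5) * a ^ 10 * b ^ 5 * τ ^ 2 + 108 * a ^ 10 * b ^ 5 * τ + (1512 / 5) * a ^ 10 * b ^ 5 - 4968 * a ^ 9 * b ^ 6 * τ ^ 13 - 1944 * a ^ 9 * b ^ 6 * τ ^ 12 + 108756 * a ^ 9 * b ^ 6 * τ ^ 11 + 85644 * a ^ 9 * b ^ 6 * τ ^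 10 - 636552 * a ^ 9 * b ^ 6 * τ ^ 9 - 135972 * a ^ 9 * b ^ 6 * τ ^ 8 + 1248048 * a ^ 9 * b ^ 6 * τ ^ 7 + 475740 * a ^ 9 * b ^ 6 * τ ^ 6 - 596268 * a ^ 9 * b ^ 6 * τ ^ 5 + 68364 * a ^ 9 * b ^ 6 * τ ^ 4 - 152064 * a ^ 9 * b ^ 6 * τ ^ 3 + 258120 * a ^ 9 * b ^ 6 * τ ^ 2 - 175824 * a ^ 9 * b ^ 6 * τ + 69120 * a ^ 9 * b ^ 6 - 22356 * a ^ 8 * b ^ 7 * τ ^ 12 - 32076 * a ^ 8 * b ^ 7 * τ ^ 11 + 344088 * a ^ 8 * b ^ 7 * τ ^ 10 + 242676 * a ^ 8 * b ^ 7 * τ ^ 9 - 1259388 * a ^ 8 * b ^ 7 * τ ^ 8 - 161352 * a ^ 8 * b ^ 7 * τ ^ 7 + 1471932 * a ^ 8 * b ^ 7 * τ ^ 6 + 378432 * a ^ 8 * b ^ 7 * τ ^ 5 - 72252 * a ^ 8 * b ^ 7 * τ ^ 4 - 337284 * a ^ 8 * b ^ 7 * τ ^ 3 + 324648 * a ^ 8 * b ^ 7 * τ ^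 2 - 207360 * a ^ 8 * b ^ 7 * τ + 82944 * a ^ 8 * b ^ 7 + 8748 * a ^ 7 * b ^ 8 * τ ^ 12 - 81972 * a ^ 7 * b ^ 8 * τ ^ 11 - 108864 * a ^ 7 * b ^ 8 * τ ^ 10 + 729972 * a ^ 7 * b ^ 8 * τ ^ 9 + 295164 * a ^ 7 * b ^ 8 * τ ^ 8 - 1591164 * a ^ 7 * b ^ 8 * τ ^ 7 + 71604 * a ^ 7 * b ^ 8 * τ ^ 6 + 561816 * a ^ 7 * b ^ 8 * τ ^ 5 + 1133676 * a ^ 7 * b ^ 8 * τ ^ 4 - 996948 * a ^ 7 * b ^ 8 * τ ^ 3 + 1057536 * a ^ 7 * b ^ 8 * τ ^ 2 - 725760 * a ^ 7 * b ^ 8 * τ + 290304 * a ^ 7 * b ^ 8 - 1944 * a ^ 6 * b ^ 9 * τ ^ 13 + 4968 * a ^ 6 * b ^ 9 * τ ^ 12 + 36828 * a ^ 6 * b ^ 9 * τ ^ 11 - 204228 * a ^ 6 * b ^ 9 * τ ^ 10 - 137376 * a ^ 6 * b ^ 9 * τ ^ 9 + 1030104 * a ^ 6 * b ^ 9 * τ ^ 8 + 3564 * a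 ^ 6 * b ^ 9 * τ ^ 7 - 651780 * a ^ 6 * b ^ 9 * τ ^ 6 - 821772 * a ^ 6 * b ^ 9 * τ ^ 5 + 1427652 * a ^ 6 * b ^ 9 * τ ^ 4 - 1116072 * a ^ 6 * b ^ 9 * τ ^ 3 + 1491480 * a ^ 6 * b ^ 9 * τ ^ 2 - 1009152 * a ^ 6 * b ^ 9 * τ + 400896 * a ^ 6 * b ^ 9 + (972 / 5) * a ^ 5 * b ^ 10 * τ ^ 14 - (2484 / 5) * a ^ 5 * b ^ 10 * τ ^ 13 - (45144 / 5) * a ^ 5 * b ^ 10 * τ ^ 12 + 23652 * a ^ 5 * b ^ 10 * τ ^ 11 + (273996 / 5) * a ^ 5 * b ^ 10 * τ ^ 10 - (1786428 / 5) * a ^ 5 * b ^ 10 * τ ^ 9 + (347436 / 5) * a ^ 5 * b ^ 10 * τ ^ 8 + (2288736 / 5) * a ^ 5 * b ^ 10 * τ ^ 7 + 541620 * a ^ 5 * b ^ 10 * τ ^ 6 - (4974264 / 5) * a ^ 5 * b ^ 10 * τ ^ 5 + (3749868 / 5) * a ^ 5 * b ^ 10 * τ ^ 4 - (5118336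 / 5) * a ^ 5 * b ^ 10 * τ ^ 3 + (6643404 / 5) * a ^ 5 * b ^ 10 * τ ^ 2 - 865188 * a ^ 5 * b ^ 10 * τ + (1724544 / 5) * a ^ 5 * b ^ 10 + 972 * a ^ 4 * b ^ 11 * τ ^ 13 - 2484 * a ^ 4 * b ^ 11 * τ ^ 12 - 15984 * a ^ 4 * b ^ 11 * τ ^ 11 + 73224 * a ^ 4 * b ^ 11 * τ ^ 10 - 31212 * a ^ 4 * b ^ 11 * τ ^ 9 - 135972 * a ^ 4 * b ^ 11 * τ ^ 8 - 157032 * a ^ 4 * b ^ 11 * τ ^ 7 + 500580 * a ^ 4 * b ^ 11 * τ ^ 6 - 200448 * a ^ 4 * b ^ 11 * τ ^ 5 + 391284 * a ^ 4 * b ^ 11 * τ ^ 4 - 707724 * a ^ 4 * b ^ 11 * τ ^ 3 + 783540 * a ^ 4 * b ^ 11 * τ ^ 2 - 514944 * a ^ 4 * b ^ 11 * τ + 207360 * a ^ 4 * b ^ 11 + 1944 * a ^ 3 * b ^ 12 * τ ^ 12 - 14796 * a ^ 3 * b ^ 12 * τ ^ 11 + 7128 * a ^ 3 * b ^ 12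 * τ ^ 10 + 8316 * a ^ 3 * b ^ 12 * τ ^ 9 + 42552 * a ^ 3 * b ^ 12 * τ ^ 8 - 161892 * a ^ 3 * b ^ 12 * τ ^ 7 + 98172 * a ^ 3 * b ^ 12 * τ ^ 6 - 111024 * a ^ 3 * b ^ 12 * τ ^ 5 + 351108 * a ^ 3 * b ^ 12 * τ ^ 4 - 430164 * a ^ 3 * b ^ 12 * τ ^ 3 + 459648 * a ^ 3 * b ^ 12 * τ ^ 2 - 311040 * a ^ 3 * b ^ 12 * τ + 124416 * a ^ 3 * b ^ 12 + 2268 * a ^ 2 * b ^ 13 * τ ^ 12 - 2592 * a ^ 2 * b ^ 13 * τ ^ 11 + 1836 * a ^ 2 * b ^ 13 * τ ^ 10 - 14148 * a ^ 2 * b ^ 13 * τ ^ 9 + 31104 * a ^ 2 * b ^ 13 * τ ^ 8 - 36504 * a ^ 2 * b ^ 13 * τ ^ 7 + 31644 * a ^ 2 * b ^ 13 * τ ^ 6 - 98820 * a ^ 2 * b ^ 13 * τ ^ 5 + 149256 * a ^ 2 * b ^ 13 * τ ^ 4 - 177228 * a ^ 2 * b ^ 13 * τ ^ 3 + 200556 * a ^ 2 *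 b ^ 13 * τ ^ 2 - 138240 * a ^ 2 * b ^ 13 * τ + 55296 * a ^ 2 * b ^ 13 - 324 * a * b ^ 14 * τ ^ 13 + 648 * a * b ^ 14 * τ ^ 12 - 972 * a * b ^ 14 * τ ^ 11 + 2592 * a * b ^ 14 * τ ^ 10 - 5076 * a * b ^ 14 * τ ^ 9 + 5724 * a * b ^ 14 * τ ^ 8 - 7776 * a * b ^ 14 * τ ^ 7 + 13500 * a * b ^ 14 * τ ^ 6 - 26136 * a * b ^ 14 * τ ^ 5 + 31212 * a * b ^ 14 * τ ^ 4 - 45792 * a * b ^ 14 * τ ^ 3 + 50220 * a * b ^ 14 * τ ^ 2 - 35532 * a * b ^ 14 * τ + 13824 * a * b ^ 14 + (108 / 5) * b ^ 15 * τ ^ 14 - (216 / 5) * b ^ 15 * τ ^ 13 + (324 / 5) * b ^ 15 * τ ^ 12 - 108 * b ^ 15 * τ ^ 11 + (864 / 5) * b ^ 15 * τ ^ 10 - (432 / 5) * b ^ 15 * τ ^ 9 - (216 / 5) * b ^ 15 * τ ^ 8 - (216 / 5) * b ^ 15 *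 τ ^ 7 - (216 / 5) * b ^ 15 * τ ^ 5 - (2268 / 5) * b ^ 15 * τ ^ 4 - (1404 / 5) * b ^ 15 * τ ^ 3 - (864 / 5) * b ^ 15 * τ ^ 2 - 108 * b ^ 15 * τ - (324 / 5) * b ^ 15) * hτ

theorem yN_S' (a b τ : k) (hτ : τ ^ 2 + τ - 1 = 0) :
    yN (-a + τ * b) (τ * a + b) = (τ - 2) ^ 8 * ytM τ a b := by
  unfold ytM yN
  linear_combination (-108 * a ^ 15 * τ ^ 12 + 540 * a ^ 15 * τ ^ 11 - 1620 * a ^ 15 * τ ^ 10 + 3780 * a ^ 15 * τ ^ 9 - 8100 * a ^ 15 * τ ^ 8 + (74952 / 5) * a ^ 15 * τ ^ 7 - (124956 / 5) * a ^ 15 * τ ^ 6 + (189324 / 5) * a ^ 15 * τ ^ 5 - 51300 * a ^ 15 * τ ^ 4 + 55296 * a ^ 15 * τ ^ 3 - (220644 / 5) * a ^ 15 * τ ^ 2 + (110592 / 5) * a ^ 15 * τ - (27648 / 5) * a ^ 15 + 108 * a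 ^ 14 * b * τ ^ 13 - 972 * a ^ 14 * b * τ ^ 12 + 2484 * a ^ 14 * b * τ ^ 11 - 4320 * a ^ 14 * b * τ ^ 10 + 8640 * a ^ 14 * b * τ ^ 9 - 13932 * a ^ 14 * b * τ ^ 8 + 11448 * a ^ 14 * b * τ ^ 7 - 2376 * a ^ 14 * b * τ ^ 6 + 540 * a ^ 14 * b * τ ^ 5 + 1620 * a ^ 14 * b * τ ^ 4 + 432 * a ^ 14 * b * τ ^ 3 - 108 * a ^ 14 * b * τ ^ 2 + 216 * a ^ 14 * b * τ + 432 * a ^ 13 * b ^ 2 * τ ^ 13 - 1836 * a ^ 13 * b ^ 2 * τ ^ 12 + 756 * a ^ 13 * b ^ 2 * τ ^ 11 - 4428 * a ^ 13 * b ^ 2 * τ ^ 10 + 14580 * a ^ 13 * b ^ 2 * τ ^ 9 + 4212 * a ^ 13 * b ^ 2 * τ ^ 8 - 51516 * a ^ 13 * b ^ 2 * τ ^ 7 + 41796 * a ^ 13 * b ^ 2 * τ ^ 6 - 16848 * a ^ 13 * b ^ 2 * τ ^ 5 + 540 * a ^ 13 * b ^ 2 * τ ^ 4 + 3348 *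 a ^ 13 * b ^ 2 * τ ^ 3 - 324 * a ^ 13 * b ^ 2 * τ ^ 2 - 216 * a ^ 13 * b ^ 2 * τ + 108 * a ^ 13 * b ^ 2 + 972 * a ^ 12 * b ^ 3 * τ ^ 13 - 1836 * a ^ 12 * b ^ 3 * τ ^ 12 + 4644 * a ^ 12 * b ^ 3 * τ ^ 11 - 29592 * a ^ 12 * b ^ 3 * τ ^ 10 - 3240 * a ^ 12 * b ^ 3 * τ ^ 9 + 127332 * a ^ 12 * b ^ 3 * τ ^ 8 - 72576 * a ^ 12 * b ^ 3 * τ ^ 7 - 82296 * a ^ 12 * b ^ 3 * τ ^ 6 + 84888 * a ^ 12 * b ^ 3 * τ ^ 5 - 36720 * a ^ 12 * b ^ 3 * τ ^ 4 + 3348 * a ^ 12 * b ^ 3 * τ ^ 3 + 3996 * a ^ 12 * b ^ 3 * τ ^ 2 + 216 * a ^ 12 * b ^ 3 * τ - 108 * a ^ 12 * b ^ 3 + 1620 * a ^ 11 * b ^ 4 * τ ^ 13 - 3456 * a ^ 11 * b ^ 4 * τ ^ 12 + 14472 * a ^ 11 * b ^ 4 * τ ^ 11 + 19548 * a ^ 11 * b ^ 4 * τ ^ 10 -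 235980 * a ^ 11 * b ^ 4 * τ ^ 9 + 140940 * a ^ 11 * b ^ 4 * τ ^ 8 + 300024 * a ^ 11 * b ^ 4 * τ ^ 7 - 224208 * a ^ 11 * b ^ 4 * τ ^ 6 - 85212 * a ^ 11 * b ^ 4 * τ ^ 5 + 99360 * a ^ 11 * b ^ 4 * τ ^ 4 - 42660 * a ^ 11 * b ^ 4 * τ ^ 3 - 324 * a ^ 11 * b ^ 4 * τ ^ 2 + 1728 * a ^ 11 * b ^ 4 * τ + 432 * a ^ 11 * b ^ 4 + 2700 * a ^ 10 * b ^ 5 * τ ^ 13 - 3672 * a ^ 10 * b ^ 5 * τ ^ 12 - 16848 * a ^ 10 * b ^ 5 * τ ^ 11 + 166860 * a ^ 10 * b ^ 5 * τ ^ 10 - 69120 * a ^ 10 * b ^ 5 * τ ^ 9 - 715500 * a ^ 10 * b ^ 5 * τ ^ 8 + (3236868 / 5) * a ^ 10 * b ^ 5 * τ ^ 7 + (784296 / 5) * a ^ 10 * b ^ 5 * τ ^ 6 + (555336 / 5) * a ^ 10 * b ^ 5 * τ ^ 5 - 657180 * a ^ 10 * b ^ 5 * τ ^ 4 + 730404 *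 a ^ 10 * b ^ 5 * τ ^ 3 - (2793096 / 5) * a ^ 10 * b ^ 5 * τ ^ 2 + (1402488 / 5) * a ^ 10 * b ^ 5 * τ - (387072 / 5) * a ^ 10 * b ^ 5 + 3132 * a ^ 9 * b ^ 6 * τ ^ 13 + 7992 * a ^ 9 * b ^ 6 * τ ^ 12 - 66744 * a ^ 9 * b ^ 6 * τ ^ 11 + 16740 * a ^ 9 * b ^ 6 * τ ^ 10 + 593460 * a ^ 9 * b ^ 6 * τ ^ 9 - 577908 * a ^ 9 * b ^ 6 * τ ^ 8 - 942408 * a ^ 9 * b ^ 6 * τ ^ 7 + 717336 * a ^ 9 * b ^ 6 * τ ^ 6 + 480600 * a ^ 9 * b ^ 6 * τ ^ 5 - 263520 * a ^ 9 * b ^ 6 * τ ^ 4 - 79812 * a ^ 9 * b ^ 6 * τ ^ 3 + 54648 * a ^ 9 * b ^ 6 * τ ^ 2 - 3996 * a ^ 9 * b ^ 6 * τ + 540 * a ^ 9 * b ^ 6 + 2268 * a ^ 8 * b ^ 7 * τ ^ 13 + 20736 * a ^ 8 * b ^ 7 * τ ^ 12 - 4536 * a ^ 8 * b ^ 7 * τ ^ 11 - 256932 * a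 ^ 8 * b ^ 7 * τ ^ 10 + 317520 * a ^ 8 * b ^ 7 * τ ^ 9 + 941868 * a ^ 8 * b ^ 7 * τ ^ 8 - 977184 * a ^ 8 * b ^ 7 * τ ^ 7 - 1078596 * a ^ 8 * b ^ 7 * τ ^ 6 + 643788 * a ^ 8 * b ^ 7 * τ ^ 5 + 417960 * a ^ 8 * b ^ 7 * τ ^ 4 - 127008 * a ^ 8 * b ^ 7 * τ ^ 3 - 64476 * a ^ 8 * b ^ 7 * τ ^ 2 + 12636 * a ^ 8 * b ^ 7 * τ - 648 * a ^ 8 * b ^ 7 + 648 * a ^ 7 * b ^ 8 * τ ^ 13 + 12636 * a ^ 7 * b ^ 8 * τ ^ 12 + 64476 * a ^ 7 * b ^ 8 * τ ^ 11 - 127008 * a ^ 7 * b ^ 8 * τ ^ 10 - 417960 * a ^ 7 * b ^ 8 * τ ^ 9 + 643788 * a ^ 7 * b ^ 8 * τ ^ 8 + 1078596 * a ^ 7 * b ^ 8 * τ ^ 7 - 977184 * a ^ 7 * b ^ 8 * τ ^ 6 - 941868 * a ^ 7 * b ^ 8 * τ ^ 5 + 317520 * a ^ 7 * b ^ 8 * τ ^ 4 + 256932 * a ^ 7 *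 b ^ 8 * τ ^ 3 - 4536 * a ^ 7 * b ^ 8 * τ ^ 2 - 20736 * a ^ 7 * b ^ 8 * τ + 2268 * a ^ 7 * b ^ 8 + 540 * a ^ 6 * b ^ 9 * τ ^ 13 + 3996 * a ^ 6 * b ^ 9 * τ ^ 12 + 54648 * a ^ 6 * b ^ 9 * τ ^ 11 + 79812 * a ^ 6 * b ^ 9 * τ ^ 10 - 263520 * a ^ 6 * b ^ 9 * τ ^ 9 - 480600 * a ^ 6 * b ^ 9 * τ ^ 8 + 717336 * a ^ 6 * b ^ 9 * τ ^ 7 + 942408 * a ^ 6 * b ^ 9 * τ ^ 6 - 577908 * a ^ 6 * b ^ 9 * τ ^ 5 - 593460 * a ^ 6 * b ^ 9 * τ ^ 4 + 16740 * a ^ 6 * b ^ 9 * τ ^ 3 + 66744 * a ^ 6 * b ^ 9 * τ ^ 2 + 7992 * a ^ 6 * b ^ 9 * τ - 3132 * a ^ 6 * b ^ 9 - 1512 * a ^ 5 * b ^ 10 * τ ^ 12 + 22248 * a ^ 5 * b ^ 10 * τ ^ 11 + 94500 * a ^ 5 * b ^ 10 * τ ^ 10 + 69660 * a ^ 5 * b ^ 10 * τ ^ 9 - 290520 * a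 ^ 5 * b ^ 10 * τ ^ 8 - (2316276 / 5) * a ^ 5 * b ^ 10 * τ ^ 7 + (2591568 / 5) * a ^ 5 * b ^ 10 * τ ^ 6 + (2896668 / 5) * a ^ 5 * b ^ 10 * τ ^ 5 - 207360 * a ^ 5 * b ^ 10 * τ ^ 4 + 81972 * a ^ 5 * b ^ 10 * τ ^ 3 - (2600208 / 5) * a ^ 5 * b ^ 10 * τ ^ 2 + (2036664 / 5) * a ^ 5 * b ^ 10 * τ - (871236 / 5) * a ^ 5 * b ^ 10 + 432 * a ^ 4 * b ^ 11 * τ ^ 13 - 1728 * a ^ 4 * b ^ 11 * τ ^ 12 - 324 * a ^ 4 * b ^ 11 * τ ^ 11 + 42660 * a ^ 4 * b ^ 11 * τ ^ 10 + 99360 * a ^ 4 * b ^ 11 * τ ^ 9 + 85212 * a ^ 4 * b ^ 11 * τ ^ 8 - 224208 * a ^ 4 * b ^ 11 * τ ^ 7 - 300024 * a ^ 4 * b ^ 11 * τ ^ 6 + 140940 * a ^ 4 * b ^ 11 * τ ^ 5 + 235980 * a ^ 4 * b ^ 11 * τ ^ 4 + 19548 * a ^ 4 * b ^ 11 * τ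 ^ 3 - 14472 * a ^ 4 * b ^ 11 * τ ^ 2 - 3456 * a ^ 4 * b ^ 11 * τ - 1620 * a ^ 4 * b ^ 11 + 108 * a ^ 3 * b ^ 12 * τ ^ 13 + 216 * a ^ 3 * b ^ 12 * τ ^ 12 - 3996 * a ^ 3 * b ^ 12 * τ ^ 11 + 3348 * a ^ 3 * b ^ 12 * τ ^ 10 + 36720 * a ^ 3 * b ^ 12 * τ ^ 9 + 84888 * a ^ 3 * b ^ 12 * τ ^ 8 + 82296 * a ^ 3 * b ^ 12 * τ ^ 7 - 72576 * a ^ 3 * b ^ 12 * τ ^ 6 - 127332 * a ^ 3 * b ^ 12 * τ ^ 5 - 3240 * a ^ 3 * b ^ 12 * τ ^ 4 + 29592 * a ^ 3 * b ^ 12 * τ ^ 3 + 4644 * a ^ 3 * b ^ 12 * τ ^ 2 + 1836 * a ^ 3 * b ^ 12 * τ + 972 * a ^ 3 * b ^ 12 + 108 * a ^ 2 * b ^ 13 * τ ^ 13 + 216 * a ^ 2 * b ^ 13 * τ ^ 12 - 324 * a ^ 2 * b ^ 13 * τ ^ 11 - 3348 * a ^ 2 * b ^ 13 * τ ^ 10 + 540 * a ^ 2 * b ^ 13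 * τ ^ 9 + 16848 * a ^ 2 * b ^ 13 * τ ^ 8 + 41796 * a ^ 2 * b ^ 13 * τ ^ 7 + 51516 * a ^ 2 * b ^ 13 * τ ^ 6 + 4212 * a ^ 2 * b ^ 13 * τ ^ 5 - 14580 * a ^ 2 * b ^ 13 * τ ^ 4 - 4428 * a ^ 2 * b ^ 13 * τ ^ 3 - 756 * a ^ 2 * b ^ 13 * τ ^ 2 - 1836 * a ^ 2 * b ^ 13 * τ - 432 * a ^ 2 * b ^ 13 + 216 * a * b ^ 14 * τ ^ 12 + 108 * a * b ^ 14 * τ ^ 11 + 432 * a * b ^ 14 * τ ^ 10 - 1620 * a * b ^ 14 * τ ^ 9 + 540 * a * b ^ 14 * τ ^ 8 + 2376 * a * b ^ 14 * τ ^ 7 + 11448 * a * b ^ 14 * τ ^ 6 + 13932 * a * b ^ 14 * τ ^ 5 + 8640 * a * b ^ 14 * τ ^ 4 + 4320 * a * b ^ 14 * τ ^ 3 + 2484 * a * b ^ 14 * τ ^ 2 + 972 * a * b ^ 14 * τ + 108 * a * b ^ 14 + 108 * b ^ 15 * τ ^ 11 + 540 * b ^ 15 * τ ^ 9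 - 540 * b ^ 15 * τ ^ 8 + (7884 / 5) * b ^ 15 * τ ^ 7 - (4212 / 5) * b ^ 15 * τ ^ 6 + (4428 / 5) * b ^ 15 * τ ^ 5 + 13500 * b ^ 15 * τ ^ 4 - 29268 * b ^ 15 * τ ^ 3 + (246132 / 5) * b ^ 15 * τ ^ 2 - (194076 / 5) * b ^ 15 * τ + (82944 / 5) * b ^ 15) * hτ

theorem g1_S' (a b τ : k) (hτ : τ ^ 2 + τ - 1 = 0) :
    g1 (-a + τ * b) (τ * a + b) = (τ - 2) ^ 5 * (-g1 a b + τ * g2 a b) := by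
  unfold g1 g2
  linear_combination (11 * a ^ 11 * τ ^ 8 - 11 * a ^ 11 * τ ^ 7 + 22 * a ^ 11 * τ ^ 6 - 33 * a ^ 11 * τ ^ 5 + 55 * a ^ 11 * τ ^ 4 - 21 * a ^ 11 * τ ^ 3 + 66 * a ^ 11 * τ ^ 2 - 47 * a ^ 11 * τ + 33 * a ^ 11 - 11 * a ^ 10 * b * τ ^ 9 + 11 * a ^ 10 * b * τ ^ 8 + 88 * a ^ 10 * b * τ ^ 7 - 77 * a ^ 10 * b * τ ^ 6 + 165 * a ^ 10 * b * τ ^ 5 - 627 * a ^ 10 * b * τ ^ 4 + 682 * a ^ 10 * b * τ ^ 3 - 539 * a ^ 10 * b * τ ^ 2 + 341 * a ^ 10 * b * τ - 110 * a ^ 9 * b ^ 2 * τ ^ 8 + 110 * a ^ 9 * b ^ 2 * τ ^ 7 + 275 * a ^ 9 * b ^ 2 * τ ^ 6 + 825 * a ^ 9 * b ^ 2 * τ ^ 5 - 550 * a ^ 9 * b ^ 2 * τ ^ 4 - 605 * a ^ 9 * b ^ 2 * τ ^ 3 + 55 * a ^ 9 * b ^ 2 * τ ^ 2 - 495 * a ^ 8 * b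 ^ 3 * τ ^ 7 - 825 * a ^ 8 * b ^ 3 * τ ^ 6 + 1650 * a ^ 8 * b ^ 3 * τ ^ 5 + 2475 * a ^ 8 * b ^ 3 * τ ^ 4 - 825 * a ^ 8 * b ^ 3 * τ ^ 3 - 660 * a ^ 8 * b ^ 3 * τ ^ 2 + 990 * a ^ 7 * b ^ 4 * τ ^ 7 - 2310 * a ^ 7 * b ^ 4 * τ ^ 6 - 3300 * a ^ 7 * b ^ 4 * τ ^ 5 + 3300 * a ^ 7 * b ^ 4 * τ ^ 4 + 3300 * a ^ 7 * b ^ 4 * τ ^ 3 - 330 * a ^ 7 * b ^ 4 * τ ^ 2 - 330 * a ^ 7 * b ^ 4 * τ - 396 * a ^ 6 * b ^ 5 * τ ^ 8 + 396 * a ^ 6 * b ^ 5 * τ ^ 7 + 4158 * a ^ 6 * b ^ 5 * τ ^ 6 - 6072 * a ^ 6 * b ^ 5 * τ ^ 5 - 2970 * a ^ 6 * b ^ 5 * τ ^ 4 + 198 * a ^ 6 * b ^ 5 * τ ^ 3 + 6072 * a ^ 6 * b ^ 5 * τ ^ 2 - 3234 * a ^ 6 * b ^ 5 * τ + 2046 * a ^ 6 * b ^ 5 + 66 * a ^ 5 * b ^ 6 * τ ^ 9 - 66 * a ^ 5 * b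 ^ 6 * τ ^ 8 - 1848 * a ^ 5 * b ^ 6 * τ ^ 7 + 1782 * a ^ 5 * b ^ 6 * τ ^ 6 + 6270 * a ^ 5 * b ^ 6 * τ ^ 5 - 7656 * a ^ 5 * b ^ 6 * τ ^ 4 + 66 * a ^ 5 * b ^ 6 * τ ^ 3 - 2772 * a ^ 5 * b ^ 6 * τ ^ 2 + 2508 * a ^ 5 * b ^ 6 * τ + 330 * a ^ 4 * b ^ 7 * τ ^ 8 - 330 * a ^ 4 * b ^ 7 * τ ^ 7 - 3300 * a ^ 4 * b ^ 7 * τ ^ 6 + 3300 * a ^ 4 * b ^ 7 * τ ^ 5 + 3300 * a ^ 4 * b ^ 7 * τ ^ 4 - 2310 * a ^ 4 * b ^ 7 * τ ^ 3 - 990 * a ^ 4 * b ^ 7 * τ ^ 2 + 660 * a ^ 3 * b ^ 8 * τ ^ 7 - 825 * a ^ 3 * b ^ 8 * τ ^ 6 - 2475 * a ^ 3 * b ^ 8 * τ ^ 5 + 1650 * a ^ 3 * b ^ 8 * τ ^ 4 + 825 * a ^ 3 * b ^ 8 * τ ^ 3 - 495 * a ^ 3 * b ^ 8 * τ ^ 2 + 55 * a ^ 2 * b ^ 9 * τ ^ 7 + 605 * a ^ 2 * b ^ 9 * τ ^ 6 - 550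 * a ^ 2 * b ^ 9 * τ ^ 5 - 825 * a ^ 2 * b ^ 9 * τ ^ 4 + 275 * a ^ 2 * b ^ 9 * τ ^ 3 - 110 * a ^ 2 * b ^ 9 * τ ^ 2 - 110 * a ^ 2 * b ^ 9 * τ - 11 * a * b ^ 10 * τ ^ 8 + 11 * a * b ^ 10 * τ ^ 7 - 22 * a * b ^ 10 * τ ^ 6 + 363 * a * b ^ 10 * τ ^ 5 - 385 * a * b ^ 10 * τ ^ 4 + 341 * a * b ^ 10 * τ ^ 3 - 616 * a * b ^ 10 * τ ^ 2 + 517 * a * b ^ 10 * τ - 363 * a * b ^ 10 + b ^ 11 * τ ^ 9 - b ^ 11 * τ ^ 8 + 2 * b ^ 11 * τ ^ 7 - 3 * b ^ 11 * τ ^ 6 + 5 * b ^ 11 * τ ^ 5 + 57 * b ^ 11 * τ ^ 4 - 42 * b ^ 11 * τ ^ 3 + 59 * b ^ 11 * τ ^ 2 - 21 * b ^ 11 * τ) * hτ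

theorem g2_S' (a b τ : k) (hτ : τ ^ 2 + τ - 1 = 0) :
    g2 (-a + τ * b) (τ * a + b) = (τ - 2) ^ 5 * (τ * g1 a b + g2 a b) := by
  unfold g1 g2
  linear_combination (a ^ 11 * τ ^ 9 - a ^ 11 * τ ^ 8 + 2 * a ^ 11 * τ ^ 7 - 3 * a ^ 11 * τ ^ 6 + 5 * a ^ 11 * τ ^ 5 + 57 * a ^ 11 * τ ^ 4 - 42 * a ^ 11 * τ ^ 3 + 59 * a ^ 11 * τ ^ 2 - 21 * a ^ 11 * τ + 11 * a ^ 10 * b * τ ^ 8 - 11 * a ^ 10 * b * τ ^ 7 + 22 * a ^ 10 * b * τ ^ 6 - 363 * a ^ 10 * b * τ ^ 5 + 385 * a ^ 10 * b * τ ^ 4 - 341 * a ^ 10 * b * τ ^ 3 + 616 * a ^ 10 * b * τ ^ 2 - 517 * a ^ 10 * b * τ + 363 * a ^ 10 * b + 55 * a ^ 9 * b ^ 2 * τ ^ 7 + 605 * a ^ 9 * b ^ 2 * τ ^ 6 - 550 * a ^ 9 * b ^ 2 * τ ^ 5 - 825 * a ^ 9 * b ^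 2 * τ ^ 4 + 275 * a ^ 9 * b ^ 2 * τ ^ 3 - 110 * a ^ 9 * b ^ 2 * τ ^ 2 - 110 * a ^ 9 * b ^ 2 * τ - 660 * a ^ 8 * b ^ 3 * τ ^ 7 + 825 * a ^ 8 * b ^ 3 * τ ^ 6 + 2475 * a ^ 8 * b ^ 3 * τ ^ 5 - 1650 * a ^ 8 * b ^ 3 * τ ^ 4 - 825 * a ^ 8 * b ^ 3 * τ ^ 3 + 495 * a ^ 8 * b ^ 3 * τ ^ 2 + 330 * a ^ 7 * b ^ 4 * τ ^ 8 - 330 * a ^ 7 * b ^ 4 * τ ^ 7 - 3300 * a ^ 7 * b ^ 4 * τ ^ 6 + 3300 * a ^ 7 * b ^ 4 * τ ^ 5 + 3300 * a ^ 7 * b ^ 4 * τ ^ 4 - 2310 * a ^ 7 * b ^ 4 * τ ^ 3 - 990 * a ^ 7 * b ^ 4 * τ ^ 2 - 66 * a ^ 6 * b ^ 5 * τ ^ 9 + 66 * a ^ 6 * b ^ 5 * τ ^ 8 + 1848 * a ^ 6 * b ^ 5 * τ ^ 7 - 1782 * a ^ 6 * b ^ 5 * τ ^ 6 - 6270 * a ^ 6 * b ^ 5 * τ ^ 5 + 7656 * a ^ 6 * b ^ 5 * τ ^ 4 - 66 * a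 ^ 6 * b ^ 5 * τ ^ 3 + 2772 * a ^ 6 * b ^ 5 * τ ^ 2 - 2508 * a ^ 6 * b ^ 5 * τ - 396 * a ^ 5 * b ^ 6 * τ ^ 8 + 396 * a ^ 5 * b ^ 6 * τ ^ 7 + 4158 * a ^ 5 * b ^ 6 * τ ^ 6 - 6072 * a ^ 5 * b ^ 6 * τ ^ 5 - 2970 * a ^ 5 * b ^ 6 * τ ^ 4 + 198 * a ^ 5 * b ^ 6 * τ ^ 3 + 6072 * a ^ 5 * b ^ 6 * τ ^ 2 - 3234 * a ^ 5 * b ^ 6 * τ + 2046 * a ^ 5 * b ^ 6 - 990 * a ^ 4 * b ^ 7 * τ ^ 7 + 2310 * a ^ 4 * b ^ 7 * τ ^ 6 + 3300 * a ^ 4 * b ^ 7 * τ ^ 5 - 3300 * a ^ 4 * b ^ 7 * τ ^ 4 - 3300 * a ^ 4 * b ^ 7 * τ ^ 3 + 330 * a ^ 4 * b ^ 7 * τ ^ 2 + 330 * a ^ 4 * b ^ 7 * τ - 495 * a ^ 3 * b ^ 8 * τ ^ 7 - 825 * a ^ 3 * b ^ 8 * τ ^ 6 + 1650 * a ^ 3 * b ^ 8 * τ ^ 5 + 2475 * a ^ 3 * b ^ 8 * τ ^ 4 - 825 * a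 ^ 3 * b ^ 8 * τ ^ 3 - 660 * a ^ 3 * b ^ 8 * τ ^ 2 + 110 * a ^ 2 * b ^ 9 * τ ^ 8 - 110 * a ^ 2 * b ^ 9 * τ ^ 7 - 275 * a ^ 2 * b ^ 9 * τ ^ 6 - 825 * a ^ 2 * b ^ 9 * τ ^ 5 + 550 * a ^ 2 * b ^ 9 * τ ^ 4 + 605 * a ^ 2 * b ^ 9 * τ ^ 3 - 55 * a ^ 2 * b ^ 9 * τ ^ 2 - 11 * a * b ^ 10 * τ ^ 9 + 11 * a * b ^ 10 * τ ^ 8 + 88 * a * b ^ 10 * τ ^ 7 - 77 * a * b ^ 10 * τ ^ 6 + 165 * a * b ^ 10 * τ ^ 5 - 627 * a * b ^ 10 * τ ^ 4 + 682 * a * b ^ 10 * τ ^ 3 - 539 * a * b ^ 10 * τ ^ 2 + 341 * a * b ^ 10 * τ - 11 * b ^ 11 * τ ^ 8 + 11 * b ^ 11 * τ ^ 7 - 22 * b ^ 11 * τ ^ 6 + 33 * b ^ 11 * τ ^ 5 - 55 * b ^ 11 * τ ^ 4 + 21 * b ^ 11 * τ ^ 3 - 66 * b ^ 11 * τ ^ 2 + 47 * b ^ 11 * τ - 33 * b ^ 11) *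 hτ

theorem M_on (a b τ : k) (hτ : τ ^ 2 + τ - 1 = 0) :
    (τ - 2) * ytM τ a b ^ 2 = xM τ a b ^ 3 + 27 * kH a b * xM τ a b + 54 * kT a b := by
  unfold ytM xM kH kT
  linear_combination ((11664 / 125) * a ^ 30 * τ - (23328 / 125) * a ^ 30 - (489888 / 125) * a ^ 25 * b ^ 5 * τ - (186624 / 125) * a ^ 25 * b ^ 5 - (2950992 / 25) * a ^ 20 * b ^ 10 * τ + (944784 / 25) * a ^ 20 * b ^ 10 - (16586208 / 25) * a ^ 15 * b ^ 15 * τ + (9261216 / 25) * a ^ 15 * b ^ 15 + (9949392 / 25) * a ^ 10 * b ^ 20 * τ + (6053616 / 25) * a ^ 10 * b ^ 20 - (6905088 / 125) * a ^ 5 * b ^ 25 * τ - (6601824 / 125) * a ^ 5 * b ^ 25 + (279936 / 125) * b ^ 30 * τ + (314928 / 125) * b ^ 30) * hτ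

theorem sep (a b τ : k) (hτ : τ ^ 2 + τ - 1 = 0) :
    (xN a b - xM τ a b) * sepL τ a b = 36 * kf a b ^ 2 := by
  unfold xN xM sepL kf
  linear_combination (-(36 / 5) * a ^ 22 * b ^ 2 + 36 * a ^ 20 * b ^ 4 - 36 * a ^ 19 * b ^ 5 - 72 * a ^ 18 * b ^ 6 + (108 / 5) * a ^ 17 * b ^ 7 + 324 * a ^ 15 * b ^ 9 - 324 * a ^ 14 * b ^ 10 - 828 * a ^ 13 * b ^ 11 + (5616 / 5) * a ^ 12 * b ^ 12 - 828 * a ^ 10 * b ^ 14 + 828 * a ^ 9 * b ^ 15 - 324 * a ^ 8 * b ^ 16 - (108 / 5) * a ^ 7 * b ^ 17 + 72 * a ^ 5 * b ^ 19 - 72 * a ^ 4 * b ^ 20 + 36 * a ^ 3 * b ^ 21 - (36 / 5) * a ^ 2 * b ^ 22) * hτ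

theorem lam_slope (a b τ μ : k) (hτ : τ ^ 2 + τ - 1 = 0) (hμ : μ ^ 2 = τ - 2) :
    lam τ μ a b * (xN a b - xM τ a b) = yN a b + μ * ytM τ a b := by
  unfold lam xN xM yN ytM
  linear_combination (-(108 / 25) * a ^ 15 * μ - (108 / 5) * a ^ 13 * b ^ 2 - (108 / 5) * a ^ 12 * b ^ 3 + (108 / 5) * a ^ 11 * b ^ 4 * μ + (108 / 5) * a ^ 11 * b ^ 4 - (1512 / 25) * a ^ 10 * b ^ 5 * μ - (1188 / 5) * a ^ 8 * b ^ 7 - (1188 / 5) * a ^ 7 * b ^ 8 + (1188 / 5) * a ^ 6 * b ^ 9 * μ + (1188 / 5) * a ^ 6 * b ^ 9 - (3456 / 25) * a ^ 5 * b ^ 10 * μ + (108 / 5) * a ^ 3 * b ^ 12 + (108 / 5) * a ^ 2 * b ^ 13 - (108 / 5) * a * b ^ 14 * μ - (108 / 5) * a * b ^ 14 + (324 / 25) * b ^ 15 * μ) * hτ + (0)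 * hμ

end Fermat.Agent.S52K.Klein56
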