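/-
Programme K (S52, 3-5 switch), brick B0 (helper56): explicit Klein icosahedral data.
GENERATED FILE (python generator of helper56; every identity was first verified with exact
arithmetic).  Conventions: `kf, kH, kT` Klein forms, `T^2 + H^3 = 1728 f^5`;
universal curve `y^2 = x^3 + 27 kH x + 54 kT`; `N = (xN, yN)` the rational 5-torsion point,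
`M = (xM, mu * ytM)` the one defined over `Q(zeta_5)`; `tau = zeta + zeta^4` (`tau^2 + tau - 1 = 0`),
`mu = zeta^2 - zeta^3` (`mu^2 = tau - 2`).  The fifth root of unity never occurs inside a large
polynomial identity: only `tau` and `mu` do.
-/
import Mathlib
import Fermat.Agent.S52K.Klein56.Defs
set_option autoImplicit false
set_option linter.unusedSectionVars false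
set_option maxRecDepth 100000

namespace Fermat.Agent.S52K.Klein56

variable {k : Type*} [Field k] [CharZero k]

theorem kf_T5 (a b ζ : k) (h5 : ζ ^ 5 = 1) :
    kf (ζ ^ 3 * a) (ζ ^ 2 * b) = kf a b := by
  unfold kf
  linear_combination (a ^ 11 * b * ζ ^ 30 + a ^ 11 * b * ζ ^ 25 + a ^ 11 * b * ζ ^ 20 + a ^ 11 * b * ζ ^ 15 + a ^ 11 * b * ζ ^ 10 + a ^ 11 * b * ζ ^ 5 + a ^ 11 * b + 11 * a ^ 6 * b ^ 6 * ζ ^ 25 + 11 * a ^ 6 * b ^ 6 * ζ ^ 20 + 11 * a ^ 6 * b ^ 6 * ζ ^ 15 + 11 * a ^ 6 * b ^ 6 * ζ ^ 10 + 11 * a ^ 6 * b ^ 6 * ζ ^ 5 + 11 * a ^ 6 * b ^ 6 - a * b ^ 11 * ζ ^ 20 - a * b ^ 11 * ζ ^ 15 - a * b ^ 11 * ζ ^ 10 - a * b ^ 11 * ζ ^ 5 - a * b ^ 11) * h5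

theorem kH_T5 (a b ζ : k) (h5 : ζ ^ 5 = 1) :
    kH (ζ ^ 3 * a) (ζ ^ 2 * b) = kH a b := by
  unfold kH
  linear_combination (-a ^ 20 * ζ ^ 55 - a ^ 20 * ζ ^ 50 - a ^ 20 * ζ ^ 45 - a ^ 20 * ζ ^ 40 - a ^ 20 * ζ ^ 35 - a ^ 20 * ζ ^ 30 - a ^ 20 * ζ ^ 25 - a ^ 20 * ζ ^ 20 - a ^ 20 * ζ ^ 15 - a ^ 20 * ζ ^ 10 - a ^ 20 * ζ ^ 5 - a ^ 20 + 228 * a ^ 15 * b ^ 5 * ζ ^ 50 + 228 * a ^ 15 * b ^ 5 * ζ ^ 45 + 228 * a ^ 15 * b ^ 5 * ζ ^ 40 + 228 * a ^ 15 * b ^ 5 * ζ ^ 35 + 228 * a ^ 15 * b ^ 5 * ζ ^ 30 + 228 * a ^ 15 * b ^ 5 * ζ ^ 25 + 228 * a ^ 15 * b ^ 5 * ζ ^ 20 + 228 * a ^ 15 * b ^ 5 * ζ ^ 15 + 228 * a ^ 15 * b ^ 5 * ζ ^ 10 + 228 * a ^ 15 * b ^ 5 * ζ ^ 5 + 228 * a ^ 15 * b ^ 5 - 494 * a ^ 10 * b ^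 10 * ζ ^ 45 - 494 * a ^ 10 * b ^ 10 * ζ ^ 40 - 494 * a ^ 10 * b ^ 10 * ζ ^ 35 - 494 * a ^ 10 * b ^ 10 * ζ ^ 30 - 494 * a ^ 10 * b ^ 10 * ζ ^ 25 - 494 * a ^ 10 * b ^ 10 * ζ ^ 20 - 494 * a ^ 10 * b ^ 10 * ζ ^ 15 - 494 * a ^ 10 * b ^ 10 * ζ ^ 10 - 494 * a ^ 10 * b ^ 10 * ζ ^ 5 - 494 * a ^ 10 * b ^ 10 - 228 * a ^ 5 * b ^ 15 * ζ ^ 40 - 228 * a ^ 5 * b ^ 15 * ζ ^ 35 - 228 * a ^ 5 * b ^ 15 * ζ ^ 30 - 228 * a ^ 5 * b ^ 15 * ζ ^ 25 - 228 * a ^ 5 * b ^ 15 * ζ ^ 20 - 228 * a ^ 5 * b ^ 15 * ζ ^ 15 - 228 * a ^ 5 * b ^ 15 * ζ ^ 10 - 228 * a ^ 5 * b ^ 15 * ζ ^ 5 - 228 * a ^ 5 * b ^ 15 - b ^ 20 * ζ ^ 35 - b ^ 20 * ζ ^ 30 - b ^ 20 * ζ ^ 25 - b ^ 20 * ζ ^ 20 - b ^ 20 * ζ ^ 15 - b ^ 20 * ζ ^ 10 - b ^ 20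 * ζ ^ 5 - b ^ 20) * h5

theorem kT_T5 (a b ζ : k) (h5 : ζ ^ 5 = 1) :
    kT (ζ ^ 3 * a) (ζ ^ 2 * b) = kT a b := by
  unfold kT
  linear_combination (a ^ 30 * ζ ^ 85 + a ^ 30 * ζ ^ 80 + a ^ 30 * ζ ^ 75 + a ^ 30 * ζ ^ 70 + a ^ 30 * ζ ^ 65 + a ^ 30 * ζ ^ 60 + a ^ 30 * ζ ^ 55 + a ^ 30 * ζ ^ 50 + a ^ 30 * ζ ^ 45 + a ^ 30 * ζ ^ 40 + a ^ 30 * ζ ^ 35 + a ^ 30 * ζ ^ 30 + a ^ 30 * ζ ^ 25 + a ^ 30 * ζ ^ 20 + a ^ 30 * ζ ^ 15 + a ^ 30 * ζ ^ 10 + a ^ 30 * ζ ^ 5 + a ^ 30 + 522 * a ^ 25 * b ^ 5 * ζ ^ 80 + 522 * a ^ 25 * b ^ 5 * ζ ^ 75 + 522 * a ^ 25 * b ^ 5 * ζ ^ 70 + 522 * a ^ 25 * b ^ 5 * ζ ^ 65 + 522 * a ^ 25 * b ^ 5 * ζ ^ 60 + 522 * a ^ 25 * b ^ 5 * ζ ^ 55 + 522 * a ^ 25 * b ^ 5 * ζ ^ 50 + 522 *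 a ^ 25 * b ^ 5 * ζ ^ 45 + 522 * a ^ 25 * b ^ 5 * ζ ^ 40 + 522 * a ^ 25 * b ^ 5 * ζ ^ 35 + 522 * a ^ 25 * b ^ 5 * ζ ^ 30 + 522 * a ^ 25 * b ^ 5 * ζ ^ 25 + 522 * a ^ 25 * b ^ 5 * ζ ^ 20 + 522 * a ^ 25 * b ^ 5 * ζ ^ 15 + 522 * a ^ 25 * b ^ 5 * ζ ^ 10 + 522 * a ^ 25 * b ^ 5 * ζ ^ 5 + 522 * a ^ 25 * b ^ 5 - 10005 * a ^ 20 * b ^ 10 * ζ ^ 75 - 10005 * a ^ 20 * b ^ 10 * ζ ^ 70 - 10005 * a ^ 20 * b ^ 10 * ζ ^ 65 - 10005 * a ^ 20 * b ^ 10 * ζ ^ 60 - 10005 * a ^ 20 * b ^ 10 * ζ ^ 55 - 10005 * a ^ 20 * b ^ 10 * ζ ^ 50 - 10005 * a ^ 20 * b ^ 10 * ζ ^ 45 - 10005 * a ^ 20 * b ^ 10 * ζ ^ 40 - 10005 * a ^ 20 * b ^ 10 * ζ ^ 35 - 10005 * a ^ 20 * b ^ 10 * ζ ^ 30 - 10005 * a ^ 20 * b ^ 10 * ζ ^ 25 - 10005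 * a ^ 20 * b ^ 10 * ζ ^ 20 - 10005 * a ^ 20 * b ^ 10 * ζ ^ 15 - 10005 * a ^ 20 * b ^ 10 * ζ ^ 10 - 10005 * a ^ 20 * b ^ 10 * ζ ^ 5 - 10005 * a ^ 20 * b ^ 10 - 10005 * a ^ 10 * b ^ 20 * ζ ^ 65 - 10005 * a ^ 10 * b ^ 20 * ζ ^ 60 - 10005 * a ^ 10 * b ^ 20 * ζ ^ 55 - 10005 * a ^ 10 * b ^ 20 * ζ ^ 50 - 10005 * a ^ 10 * b ^ 20 * ζ ^ 45 - 10005 * a ^ 10 * b ^ 20 * ζ ^ 40 - 10005 * a ^ 10 * b ^ 20 * ζ ^ 35 - 10005 * a ^ 10 * b ^ 20 * ζ ^ 30 - 10005 * a ^ 10 * b ^ 20 * ζ ^ 25 - 10005 * a ^ 10 * b ^ 20 * ζ ^ 20 - 10005 * a ^ 10 * b ^ 20 * ζ ^ 15 - 10005 * a ^ 10 * b ^ 20 * ζ ^ 10 - 10005 * a ^ 10 * b ^ 20 * ζ ^ 5 - 10005 * a ^ 10 * b ^ 20 - 522 * a ^ 5 * b ^ 25 * ζ ^ 60 - 522 * a ^ 5 * b ^ 25 *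 ζ ^ 55 - 522 * a ^ 5 * b ^ 25 * ζ ^ 50 - 522 * a ^ 5 * b ^ 25 * ζ ^ 45 - 522 * a ^ 5 * b ^ 25 * ζ ^ 40 - 522 * a ^ 5 * b ^ 25 * ζ ^ 35 - 522 * a ^ 5 * b ^ 25 * ζ ^ 30 - 522 * a ^ 5 * b ^ 25 * ζ ^ 25 - 522 * a ^ 5 * b ^ 25 * ζ ^ 20 - 522 * a ^ 5 * b ^ 25 * ζ ^ 15 - 522 * a ^ 5 * b ^ 25 * ζ ^ 10 - 522 * a ^ 5 * b ^ 25 * ζ ^ 5 - 522 * a ^ 5 * b ^ 25 + b ^ 30 * ζ ^ 55 + b ^ 30 * ζ ^ 50 + b ^ 30 * ζ ^ 45 + b ^ 30 * ζ ^ 40 + b ^ 30 * ζ ^ 35 + b ^ 30 * ζ ^ 30 + b ^ 30 * ζ ^ 25 + b ^ 30 * ζ ^ 20 + b ^ 30 * ζ ^ 15 + b ^ 30 * ζ ^ 10 + b ^ 30 * ζ ^ 5 + b ^ 30) * h5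

theorem xM_T5 (a b τ ζ : k) (h5 : ζ ^ 5 = 1) :
    xM τ (ζ ^ 3 * a) (ζ ^ 2 * b) = xM τ a b := by
  unfold xM
  linear_combination ((36 / 5) * a ^ 10 * τ * ζ ^ 25 + (36 / 5) * a ^ 10 * τ * ζ ^ 20 + (36 / 5) * a ^ 10 * τ * ζ ^ 15 + (36 / 5) * a ^ 10 * τ * ζ ^ 10 + (36 / 5) * a ^ 10 * τ * ζ ^ 5 + (36 / 5) * a ^ 10 * τ - (57 / 5) * a ^ 10 * ζ ^ 25 - (57 / 5) * a ^ 10 * ζ ^ 20 - (57 / 5) * a ^ 10 * ζ ^ 15 - (57 / 5) * a ^ 10 * ζ ^ 10 - (57 / 5) * a ^ 10 * ζ ^ 5 - (57 / 5) * a ^ 10 + (396 / 5) * a ^ 5 * b ^ 5 * τ * ζ ^ 20 + (396 / 5) * a ^ 5 * b ^ 5 * τ * ζ ^ 15 + (396 / 5) * a ^ 5 * b ^ 5 * τ * ζ ^ 10 + (396 / 5) * a ^ 5 * b ^ 5 * τ * ζ ^ 5 + (396 / 5) * a ^ 5 * b ^ 5 * τ + (198 / 5) * a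 ^ 5 * b ^ 5 * ζ ^ 20 + (198 / 5) * a ^ 5 * b ^ 5 * ζ ^ 15 + (198 / 5) * a ^ 5 * b ^ 5 * ζ ^ 10 + (198 / 5) * a ^ 5 * b ^ 5 * ζ ^ 5 + (198 / 5) * a ^ 5 * b ^ 5 - (36 / 5) * b ^ 10 * τ * ζ ^ 15 - (36 / 5) * b ^ 10 * τ * ζ ^ 10 - (36 / 5) * b ^ 10 * τ * ζ ^ 5 - (36 / 5) * b ^ 10 * τ - (93 / 5) * b ^ 10 * ζ ^ 15 - (93 / 5) * b ^ 10 * ζ ^ 10 - (93 / 5) * b ^ 10 * ζ ^ 5 - (93 / 5) * b ^ 10) * h5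

theorem ytM_T5 (a b τ ζ : k) (h5 : ζ ^ 5 = 1) :
    ytM τ (ζ ^ 3 * a) (ζ ^ 2 * b) = ytM τ a b := by
  unfold ytM
  linear_combination ((108 / 5) * a ^ 15 * τ * ζ ^ 40 + (108 / 5) * a ^ 15 * τ * ζ ^ 35 + (108 / 5) * a ^ 15 * τ * ζ ^ 30 + (108 / 5) * a ^ 15 * τ * ζ ^ 25 + (108 / 5) * a ^ 15 * τ * ζ ^ 20 + (108 / 5) * a ^ 15 * τ * ζ ^ 15 + (108 / 5) * a ^ 15 * τ * ζ ^ 10 + (108 / 5) * a ^ 15 * τ * ζ ^ 5 + (108 / 5) * a ^ 15 * τ - (108 / 5) * a ^ 15 * ζ ^ 40 - (108 / 5) * a ^ 15 * ζ ^ 35 - (108 / 5) * a ^ 15 * ζ ^ 30 - (108 / 5) * a ^ 15 * ζ ^ 25 - (108 / 5) * a ^ 15 * ζ ^ 20 - (108 / 5) * a ^ 15 * ζ ^ 15 - (108 / 5) * a ^ 15 * ζ ^ 10 - (108 / 5) * a ^ 15 * ζ ^ 5 - (108 / 5) * a ^ 15 + (972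 / 5) * a ^ 10 * b ^ 5 * τ * ζ ^ 35 + (972 / 5) * a ^ 10 * b ^ 5 * τ * ζ ^ 30 + (972 / 5) * a ^ 10 * b ^ 5 * τ * ζ ^ 25 + (972 / 5) * a ^ 10 * b ^ 5 * τ * ζ ^ 20 + (972 / 5) * a ^ 10 * b ^ 5 * τ * ζ ^ 15 + (972 / 5) * a ^ 10 * b ^ 5 * τ * ζ ^ 10 + (972 / 5) * a ^ 10 * b ^ 5 * τ * ζ ^ 5 + (972 / 5) * a ^ 10 * b ^ 5 * τ - (1512 / 5) * a ^ 10 * b ^ 5 * ζ ^ 35 - (1512 / 5) * a ^ 10 * b ^ 5 * ζ ^ 30 - (1512 / 5) * a ^ 10 * b ^ 5 * ζ ^ 25 - (1512 / 5) * a ^ 10 * b ^ 5 * ζ ^ 20 - (1512 / 5) * a ^ 10 * b ^ 5 * ζ ^ 15 - (1512 / 5) * a ^ 10 * b ^ 5 * ζ ^ 10 - (1512 / 5) * a ^ 10 * b ^ 5 * ζ ^ 5 - (1512 / 5) * a ^ 10 * b ^ 5 - (2484 / 5) * a ^ 5 * b ^ 10 * τ * ζ ^ 30 - (2484 / 5) * a ^ 5 * b ^ 10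 * τ * ζ ^ 25 - (2484 / 5) * a ^ 5 * b ^ 10 * τ * ζ ^ 20 - (2484 / 5) * a ^ 5 * b ^ 10 * τ * ζ ^ 15 - (2484 / 5) * a ^ 5 * b ^ 10 * τ * ζ ^ 10 - (2484 / 5) * a ^ 5 * b ^ 10 * τ * ζ ^ 5 - (2484 / 5) * a ^ 5 * b ^ 10 * τ - (3456 / 5) * a ^ 5 * b ^ 10 * ζ ^ 30 - (3456 / 5) * a ^ 5 * b ^ 10 * ζ ^ 25 - (3456 / 5) * a ^ 5 * b ^ 10 * ζ ^ 20 - (3456 / 5) * a ^ 5 * b ^ 10 * ζ ^ 15 - (3456 / 5) * a ^ 5 * b ^ 10 * ζ ^ 10 - (3456 / 5) * a ^ 5 * b ^ 10 * ζ ^ 5 - (3456 / 5) * a ^ 5 * b ^ 10 + (216 / 5) * b ^ 15 * τ * ζ ^ 25 + (216 / 5) * b ^ 15 * τ * ζ ^ 20 + (216 / 5) * b ^ 15 * τ * ζ ^ 15 + (216 / 5) * b ^ 15 * τ * ζ ^ 10 + (216 / 5) * b ^ 15 * τ * ζ ^ 5 + (216 / 5) * b ^ 15 * τ + (324 / 5) * b ^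 15 * ζ ^ 25 + (324 / 5) * b ^ 15 * ζ ^ 20 + (324 / 5) * b ^ 15 * ζ ^ 15 + (324 / 5) * b ^ 15 * ζ ^ 10 + (324 / 5) * b ^ 15 * ζ ^ 5 + (324 / 5) * b ^ 15) * h5

theorem g1_T5 (a b ζ : k) (h5 : ζ ^ 5 = 1) :
    g1 (ζ ^ 3 * a) (ζ ^ 2 * b) = ζ ^ 3 * g1 a b := by
  unfold g1
  linear_combination (a ^ 11 * ζ ^ 28 + a ^ 11 * ζ ^ 23 + a ^ 11 * ζ ^ 18 + a ^ 11 * ζ ^ 13 + a ^ 11 * ζ ^ 8 + a ^ 11 * ζ ^ 3 + 66 * a ^ 6 * b ^ 5 * ζ ^ 23 + 66 * a ^ 6 * b ^ 5 * ζ ^ 18 + 66 * a ^ 6 * b ^ 5 * ζ ^ 13 + 66 * a ^ 6 * b ^ 5 * ζ ^ 8 + 66 * a ^ 6 * b ^ 5 * ζ ^ 3 - 11 * a * b ^ 10 * ζ ^ 18 - 11 * a * b ^ 10 * ζ ^ 13 - 11 * a * b ^ 10 * ζ ^ 8 - 11 * a * b ^ 10 * ζ ^ 3) * h5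

theorem g2_T5 (a b ζ : k) (h5 : ζ ^ 5 = 1) :
    g2 (ζ ^ 3 * a) (ζ ^ 2 * b) = ζ ^ 2 * g2 a b := by
  unfold g2
  linear_combination (-11 * a ^ 10 * b * ζ ^ 27 - 11 * a ^ 10 * b * ζ ^ 22 - 11 * a ^ 10 * b * ζ ^ 17 - 11 * a ^ 10 * b * ζ ^ 12 - 11 * a ^ 10 * b * ζ ^ 7 - 11 * a ^ 10 * b * ζ ^ 2 - 66 * a ^ 5 * b ^ 6 * ζ ^ 22 - 66 * a ^ 5 * b ^ 6 * ζ ^ 17 - 66 * a ^ 5 * b ^ 6 * ζ ^ 12 - 66 * a ^ 5 * b ^ 6 * ζ ^ 7 - 66 * a ^ 5 * b ^ 6 * ζ ^ 2 + b ^ 11 * ζ ^ 17 + b ^ 11 * ζ ^ 12 + b ^ 11 * ζ ^ 7 + b ^ 11 * ζ ^ 2) * h5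

theorem xN_T5 (a b τ μ ζ : k) (hτ : τ ^ 2 + τ - 1 = 0) (hμ : μ ^ 2 = τ - 2) (h5 : ζ ^ 5 = 1)
    (h1 : ζ = (1 / 2) * τ * μ + (1 / 2) * τ + (1 / 2) * μ)
    (h2 : ζ ^ 2 = -(1 / 2) * τ + (1 / 2) * μ - (1 / 2))
    (h3 : ζ ^ 3 = -(1 / 2) * τ - (1 / 2) * μ - (1 / 2))
    (h4 : ζ ^ 4 = -(1 / 2) * τ * μ + (1 / 2) * τ - (1 / 2) * μ) :
    xN (ζ ^ 3 * a) (ζ ^ 2 * b) = lam τ μ a b ^ 2 - xN a b - xM τ a b := by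
  unfold xN lam xM
  linear_combination (3 * a ^ 10 * ζ ^ 25 + 3 * a ^ 10 * ζ ^ 20 + 3 * a ^ 10 * ζ ^ 15 + 3 * a ^ 10 * ζ ^ 10 + 3 * a ^ 10 * ζ ^ 5 + 3 * a ^ 10 + 36 * a ^ 8 * b ^ 2 * ζ ^ 23 + 36 * a ^ 8 * b ^ 2 * ζ ^ 18 + 36 * a ^ 8 * b ^ 2 * ζ ^ 13 + 36 * a ^ 8 * b ^ 2 * ζ ^ 8 + 36 * a ^ 8 * b ^ 2 * ζ ^ 3 - 36 * a ^ 7 * b ^ 3 * ζ ^ 22 - 36 * a ^ 7 * b ^ 3 * ζ ^ 17 - 36 * a ^ 7 * b ^ 3 * ζ ^ 12 - 36 * a ^ 7 * b ^ 3 * ζ ^ 7 - 36 * a ^ 7 * b ^ 3 * ζ ^ 2 + 72 * a ^ 6 * b ^ 4 * ζ ^ 21 + 72 * a ^ 6 * b ^ 4 * ζ ^ 16 + 72 * a ^ 6 * b ^ 4 * ζ ^ 11 + 72 * a ^ 6 * b ^ 4 * ζ ^ 6 + 72 * a ^ 6 * b ^ 4 * ζ + 90 * a ^ 5 * b ^ 5 * ζ ^ 20 + 90 * a ^ 5 * b ^ 5 * ζ ^ 15 + 90 * a ^ 5 * b ^ 5 * ζ ^ 10 +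 90 * a ^ 5 * b ^ 5 * ζ ^ 5 + 90 * a ^ 5 * b ^ 5 + 180 * a ^ 4 * b ^ 6 * ζ ^ 19 + 180 * a ^ 4 * b ^ 6 * ζ ^ 14 + 180 * a ^ 4 * b ^ 6 * ζ ^ 9 + 180 * a ^ 4 * b ^ 6 * ζ ^ 4 + 108 * a ^ 3 * b ^ 7 * ζ ^ 18 + 108 * a ^ 3 * b ^ 7 * ζ ^ 13 + 108 * a ^ 3 * b ^ 7 * ζ ^ 8 + 108 * a ^ 3 * b ^ 7 * ζ ^ 3 + 72 * a ^ 2 * b ^ 8 * ζ ^ 17 + 72 * a ^ 2 * b ^ 8 * ζ ^ 12 + 72 * a ^ 2 * b ^ 8 * ζ ^ 7 + 72 * a ^ 2 * b ^ 8 * ζ ^ 2 + 36 * a * b ^ 9 * ζ ^ 16 + 36 * a * b ^ 9 * ζ ^ 11 + 36 * a * b ^ 9 * ζ ^ 6 + 36 * a * b ^ 9 * ζ + 3 * b ^ 10 * ζ ^ 15 + 3 * b ^ 10 * ζ ^ 10 + 3 * b ^ 10 * ζ ^ 5 + 3 * b ^ 10) * h5 + (72 * a ^ 6 * b ^ 4 + 36 * a * b ^ 9) * h1 + (-36 * a ^ 7 * b ^ 3 + 72 * a ^ 2 * b ^ 8) * h2 + (36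 * a ^ 8 * b ^ 2 + 108 * a ^ 3 * b ^ 7) * h3 + (180 * a ^ 4 * b ^ 6) * h4 + (-(9 / 25) * a ^ 10 * τ + (63 / 25) * a ^ 10 - (18 / 5) * a ^ 8 * b ^ 2 * μ - (18 / 5) * a ^ 8 * b ^ 2 - (18 / 5) * a ^ 7 * b ^ 3 * μ + (18 / 5) * a ^ 7 * b ^ 3 + (18 / 5) * a ^ 6 * b ^ 4 * τ + (18 / 5) * a ^ 6 * b ^ 4 * μ - (117 / 5) * a ^ 6 * b ^ 4 - (54 / 25) * a ^ 5 * b ^ 5 * τ - (252 / 25) * a ^ 5 * b ^ 5 + 18 * a ^ 4 * b ^ 6 * μ + 27 * a ^ 4 * b ^ 6 + (36 / 5) * a ^ 3 * b ^ 7 * μ - (54 / 5) * a ^ 3 * b ^ 7 - 9 * a ^ 2 * b ^ 8 * τ - (144 / 5) * a ^ 2 * b ^ 8 * μ + (54 / 5) * a ^ 2 * b ^ 8 + (54 / 5) * a * b ^ 9 * τ + (54 / 5) * a * b ^ 9 * μ - (36 / 5) * a * b ^ 9 - (81 / 25) * b ^ 10 * τ + (27 / 25) * b ^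 10) * hτ + (-(9 / 25) * a ^ 10 * τ ^ 2 + (36 / 25) * a ^ 10 * τ - (36 / 25) * a ^ 10 - (18 / 5) * a ^ 8 * b ^ 2 * τ + (36 / 5) * a ^ 8 * b ^ 2 + (18 / 5) * a ^ 7 * b ^ 3 * τ - (36 / 5) * a ^ 7 * b ^ 3 + (18 / 5) * a ^ 6 * b ^ 4 * τ ^ 2 - (18 / 5) * a ^ 6 * b ^ 4 * τ - (81 / 5) * a ^ 6 * b ^ 4 - (54 / 25) * a ^ 5 * b ^ 5 * τ ^ 2 + (36 / 25) * a ^ 5 * b ^ 5 * τ + (594 / 25) * a ^ 5 * b ^ 5 + 18 * a ^ 4 * b ^ 6 * τ + 9 * a ^ 4 * b ^ 6 - (144 / 5) * a ^ 3 * b ^ 7 * τ - (162 / 5) * a ^ 3 * b ^ 7 - 9 * a ^ 2 * b ^ 8 * τ ^ 2 - (36 / 5) * a ^ 2 * b ^ 8 * τ + (27 / 5) * a ^ 2 * b ^ 8 + (54 / 5) * a * b ^ 9 * τ ^ 2 + (126 / 5) * a * b ^ 9 * τ + (72 / 5) * a * b ^ 9 - (81 / 25) * b ^ 10 * τ ^ 2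 - (216 / 25) * b ^ 10 * τ - (144 / 25) * b ^ 10) * hμ

theorem yN_T5 (a b τ μ ζ : k) (hτ : τ ^ 2 + τ - 1 = 0) (hμ : μ ^ 2 = τ - 2) (h5 : ζ ^ 5 = 1)
    (h1 : ζ = (1 / 2) * τ * μ + (1 / 2) * τ + (1 / 2) * μ)
    (h2 : ζ ^ 2 = -(1 / 2) * τ + (1 / 2) * μ - (1 / 2))
    (h3 : ζ ^ 3 = -(1 / 2) * τ - (1 / 2) * μ - (1 / 2))
    (h4 : ζ ^ 4 = -(1 / 2) * τ * μ + (1 / 2) * τ - (1 / 2) * μ) :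
    yN (ζ ^ 3 * a) (ζ ^ 2 * b) = -(lam τ μ a b * (lam τ μ a b ^ 2 - xN a b - xM τ a b - xN a b) + yN a b) := by
  unfold yN lam xN xM
  linear_combination (108 * a ^ 13 * b ^ 2 * ζ ^ 38 + 108 * a ^ 13 * b ^ 2 * ζ ^ 33 + 108 * a ^ 13 * b ^ 2 * ζ ^ 28 + 108 * a ^ 13 * b ^ 2 * ζ ^ 23 + 108 * a ^ 13 * b ^ 2 * ζ ^ 18 + 108 * a ^ 13 * b ^ 2 * ζ ^ 13 + 108 * a ^ 13 * b ^ 2 * ζ ^ 8 + 108 * a ^ 13 * b ^ 2 * ζ ^ 3 + 108 * a ^ 12 * b ^ 3 * ζ ^ 37 + 108 * a ^ 12 * b ^ 3 * ζ ^ 32 + 108 * a ^ 12 * b ^ 3 * ζ ^ 27 + 108 * a ^ 12 * b ^ 3 * ζ ^ 22 + 108 * a ^ 12 * b ^ 3 * ζ ^ 17 + 108 * a ^ 12 * b ^ 3 * ζ ^ 12 + 108 * a ^ 12 * b ^ 3 * ζ ^ 7 + 108 * a ^ 12 * b ^ 3 * ζ ^ 2 + 432 * a ^ 11 * b ^ 4 * ζ ^ 36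 + 432 * a ^ 11 * b ^ 4 * ζ ^ 31 + 432 * a ^ 11 * b ^ 4 * ζ ^ 26 + 432 * a ^ 11 * b ^ 4 * ζ ^ 21 + 432 * a ^ 11 * b ^ 4 * ζ ^ 16 + 432 * a ^ 11 * b ^ 4 * ζ ^ 11 + 432 * a ^ 11 * b ^ 4 * ζ ^ 6 + 432 * a ^ 11 * b ^ 4 * ζ + 540 * a ^ 9 * b ^ 6 * ζ ^ 34 + 540 * a ^ 9 * b ^ 6 * ζ ^ 29 + 540 * a ^ 9 * b ^ 6 * ζ ^ 24 + 540 * a ^ 9 * b ^ 6 * ζ ^ 19 + 540 * a ^ 9 * b ^ 6 * ζ ^ 14 + 540 * a ^ 9 * b ^ 6 * ζ ^ 9 + 540 * a ^ 9 * b ^ 6 * ζ ^ 4 + 648 * a ^ 8 * b ^ 7 * ζ ^ 33 + 648 * a ^ 8 * b ^ 7 * ζ ^ 28 + 648 * a ^ 8 * b ^ 7 * ζ ^ 23 + 648 * a ^ 8 * b ^ 7 * ζ ^ 18 + 648 * a ^ 8 * b ^ 7 * ζ ^ 13 + 648 * a ^ 8 * b ^ 7 * ζ ^ 8 + 648 * a ^ 8 * b ^ 7 * ζ ^ 3 + 2268 * a ^ 7 * b ^ 8 * ζ ^ 32 + 2268 * a ^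 7 * b ^ 8 * ζ ^ 27 + 2268 * a ^ 7 * b ^ 8 * ζ ^ 22 + 2268 * a ^ 7 * b ^ 8 * ζ ^ 17 + 2268 * a ^ 7 * b ^ 8 * ζ ^ 12 + 2268 * a ^ 7 * b ^ 8 * ζ ^ 7 + 2268 * a ^ 7 * b ^ 8 * ζ ^ 2 + 3132 * a ^ 6 * b ^ 9 * ζ ^ 31 + 3132 * a ^ 6 * b ^ 9 * ζ ^ 26 + 3132 * a ^ 6 * b ^ 9 * ζ ^ 21 + 3132 * a ^ 6 * b ^ 9 * ζ ^ 16 + 3132 * a ^ 6 * b ^ 9 * ζ ^ 11 + 3132 * a ^ 6 * b ^ 9 * ζ ^ 6 + 3132 * a ^ 6 * b ^ 9 * ζ + 2700 * a ^ 5 * b ^ 10 * ζ ^ 30 + 2700 * a ^ 5 * b ^ 10 * ζ ^ 25 + 2700 * a ^ 5 * b ^ 10 * ζ ^ 20 + 2700 * a ^ 5 * b ^ 10 * ζ ^ 15 + 2700 * a ^ 5 * b ^ 10 * ζ ^ 10 + 2700 * a ^ 5 * b ^ 10 * ζ ^ 5 + 2700 * a ^ 5 * b ^ 10 + 1620 * a ^ 4 * b ^ 11 * ζ ^ 29 + 1620 * a ^ 4 * b ^ 11 * ζ ^ 24 + 1620 * a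 ^ 4 * b ^ 11 * ζ ^ 19 + 1620 * a ^ 4 * b ^ 11 * ζ ^ 14 + 1620 * a ^ 4 * b ^ 11 * ζ ^ 9 + 1620 * a ^ 4 * b ^ 11 * ζ ^ 4 + 972 * a ^ 3 * b ^ 12 * ζ ^ 28 + 972 * a ^ 3 * b ^ 12 * ζ ^ 23 + 972 * a ^ 3 * b ^ 12 * ζ ^ 18 + 972 * a ^ 3 * b ^ 12 * ζ ^ 13 + 972 * a ^ 3 * b ^ 12 * ζ ^ 8 + 972 * a ^ 3 * b ^ 12 * ζ ^ 3 + 432 * a ^ 2 * b ^ 13 * ζ ^ 27 + 432 * a ^ 2 * b ^ 13 * ζ ^ 22 + 432 * a ^ 2 * b ^ 13 * ζ ^ 17 + 432 * a ^ 2 * b ^ 13 * ζ ^ 12 + 432 * a ^ 2 * b ^ 13 * ζ ^ 7 + 432 * a ^ 2 * b ^ 13 * ζ ^ 2 + 108 * a * b ^ 14 * ζ ^ 26 + 108 * a * b ^ 14 * ζ ^ 21 + 108 * a * b ^ 14 * ζ ^ 16 + 108 * a * b ^ 14 * ζ ^ 11 + 108 * a * b ^ 14 * ζ ^ 6 + 108 * a * b ^ 14 * ζ) * h5 + (432 * a ^ 11 * b ^ 4 +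 3132 * a ^ 6 * b ^ 9 + 108 * a * b ^ 14) * h1 + (108 * a ^ 12 * b ^ 3 + 2268 * a ^ 7 * b ^ 8 + 432 * a ^ 2 * b ^ 13) * h2 + (108 * a ^ 13 * b ^ 2 + 648 * a ^ 8 * b ^ 7 + 972 * a ^ 3 * b ^ 12) * h3 + (540 * a ^ 9 * b ^ 6 + 1620 * a ^ 4 * b ^ 11) * h4 + ((27 / 125) * a ^ 15 * τ ^ 2 * μ - (243 / 125) * a ^ 15 * τ * μ + (378 / 125) * a ^ 15 * μ + (81 / 25) * a ^ 13 * b ^ 2 * τ ^ 2 + (81 / 25) * a ^ 13 * b ^ 2 * τ * μ - (324 / 25) * a ^ 13 * b ^ 2 * τ - (567 / 25) * a ^ 13 * b ^ 2 * μ - (621 / 25) * a ^ 13 * b ^ 2 + (81 / 25) * a ^ 12 * b ^ 3 * τ ^ 2 - (81 / 25) * a ^ 12 * b ^ 3 * τ * μ - (324 / 25) * a ^ 12 * b ^ 3 * τ + (567 / 25) * a ^ 12 * b ^ 3 * μ - (621 / 25) * a ^ 12 * b ^ 3 - (81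 / 25) * a ^ 11 * b ^ 4 * τ ^ 2 * μ - (81 / 25) * a ^ 11 * b ^ 4 * τ ^ 2 + (891 / 25) * a ^ 11 * b ^ 4 * τ * μ + (1539 / 25) * a ^ 11 * b ^ 4 * τ + (1107 / 25) * a ^ 11 * b ^ 4 * μ - (3834 / 25) * a ^ 11 * b ^ 4 + (243 / 125) * a ^ 10 * b ^ 5 * τ ^ 2 * μ + (2673 / 125) * a ^ 10 * b ^ 5 * τ * μ + (3132 / 125) * a ^ 10 * b ^ 5 * μ - (162 / 5) * a ^ 9 * b ^ 6 * τ ^ 2 - (243 / 5) * a ^ 9 * b ^ 6 * τ * μ - (27 / 5) * a ^ 9 * b ^ 6 * τ + (1701 / 5) * a ^ 9 * b ^ 6 * μ + (4077 / 5) * a ^ 9 * b ^ 6 - (324 / 25) * a ^ 8 * b ^ 7 * τ ^ 2 + (486 / 25) * a ^ 8 * b ^ 7 * τ * μ + (3321 / 25) * a ^ 8 * b ^ 7 * τ - (1377 / 25) * a ^ 8 * b ^ 7 * μ + (4509 / 25) * a ^ 8 * b ^ 7 + (81 / 5) * a ^ 7 * b ^ 8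 * τ ^ 2 * μ + (1296 / 25) * a ^ 7 * b ^ 8 * τ ^ 2 - (3321 / 25) * a ^ 7 * b ^ 8 * τ * μ - (9234 / 25) * a ^ 7 * b ^ 8 * τ - (20898 / 25) * a ^ 7 * b ^ 8 * μ + (2889 / 25) * a ^ 7 * b ^ 8 - (486 / 25) * a ^ 6 * b ^ 9 * τ ^ 2 * μ - (486 / 25) * a ^ 6 * b ^ 9 * τ ^ 2 - (1539 / 25) * a ^ 6 * b ^ 9 * τ * μ + (1809 / 25) * a ^ 6 * b ^ 9 * τ - (7263 / 25) * a ^ 6 * b ^ 9 * μ + (3321 / 25) * a ^ 6 * b ^ 9 + (729 / 125) * a ^ 5 * b ^ 10 * τ ^ 2 * μ + 81 * a ^ 5 * b ^ 10 * τ ^ 2 + (30699 / 125) * a ^ 5 * b ^ 10 * τ * μ + 486 * a ^ 5 * b ^ 10 * τ + (16011 / 125) * a ^ 5 * b ^ 10 * μ - 1296 * a ^ 5 * b ^ 10 - (81 / 5) * a ^ 4 * b ^ 11 * τ ^ 2 - (324 / 5) * a ^ 4 * b ^ 11 * τ * μ - (1701 / 5) * a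 ^ 4 * b ^ 11 * τ + (2268 / 5) * a ^ 4 * b ^ 11 * μ + (3726 / 5) * a ^ 4 * b ^ 11 - 27 * a ^ 3 * b ^ 12 * τ ^ 2 * μ - (3726 / 25) * a ^ 3 * b ^ 12 * τ ^ 2 - (1296 / 25) * a ^ 3 * b ^ 12 * τ * μ + (4104 / 25) * a ^ 3 * b ^ 12 * τ + (4347 / 25) * a ^ 3 * b ^ 12 * μ + (891 / 25) * a ^ 3 * b ^ 12 + (243 / 5) * a ^ 2 * b ^ 13 * τ ^ 2 * μ + (3159 / 25) * a ^ 2 * b ^ 13 * τ ^ 2 + (891 / 25) * a ^ 2 * b ^ 13 * τ * μ - (4536 / 25) * a ^ 2 * b ^ 13 * τ - (7047 / 25) * a ^ 2 * b ^ 13 * μ - (2619 / 25) * a ^ 2 * b ^ 13 - (729 / 25) * a * b ^ 14 * τ ^ 2 * μ - (729 / 25) * a * b ^ 14 * τ ^ 2 - (486 / 25) * a * b ^ 14 * τ * μ + (1701 / 25) * a * b ^ 14 * τ + (1323 / 25) * a * b ^ 14 * μ + (594 / 25)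 * a * b ^ 14 + (729 / 125) * b ^ 15 * τ ^ 2 * μ + (729 / 125) * b ^ 15 * τ * μ - (324 / 125) * b ^ 15 * μ) * hτ + ((27 / 125) * a ^ 15 * τ ^ 3 * μ - (162 / 125) * a ^ 15 * τ ^ 2 * μ + (324 / 125) * a ^ 15 * τ * μ - (216 / 125) * a ^ 15 * μ + (81 / 25) * a ^ 13 * b ^ 2 * τ ^ 3 + (81 / 25) * a ^ 13 * b ^ 2 * τ ^ 2 * μ - (81 / 25) * a ^ 13 * b ^ 2 * τ ^ 2 - (324 / 25) * a ^ 13 * b ^ 2 * τ * μ - (648 / 25) * a ^ 13 * b ^ 2 * τ + (324 / 25) * a ^ 13 * b ^ 2 * μ + (972 / 25) * a ^ 13 * b ^ 2 + (81 / 25) * a ^ 12 * b ^ 3 * τ ^ 3 - (81 / 25) * a ^ 12 * b ^ 3 * τ ^ 2 * μ - (81 / 25) * a ^ 12 * b ^ 3 * τ ^ 2 + (324 / 25) * a ^ 12 * b ^ 3 * τ * μ - (648 / 25) * a ^ 12 * b ^ 3 * τ - (324 / 25) *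 a ^ 12 * b ^ 3 * μ + (972 / 25) * a ^ 12 * b ^ 3 - (81 / 25) * a ^ 11 * b ^ 4 * τ ^ 3 * μ - (81 / 25) * a ^ 11 * b ^ 4 * τ ^ 3 + (243 / 25) * a ^ 11 * b ^ 4 * τ ^ 2 * μ + (1296 / 25) * a ^ 11 * b ^ 4 * τ ^ 2 + (81 / 5) * a ^ 11 * b ^ 4 * τ * μ - (162 / 25) * a ^ 11 * b ^ 4 * τ - (1134 / 25) * a ^ 11 * b ^ 4 * μ - (4212 / 25) * a ^ 11 * b ^ 4 + (243 / 125) * a ^ 10 * b ^ 5 * τ ^ 3 * μ - (648 / 125) * a ^ 10 * b ^ 5 * τ ^ 2 * μ - (4374 / 125) * a ^ 10 * b ^ 5 * τ * μ + (9396 / 125) * a ^ 10 * b ^ 5 * μ - (162 / 5) * a ^ 9 * b ^ 6 * τ ^ 3 - (162 / 5) * a ^ 9 * b ^ 6 * τ ^ 2 * μ - (648 / 5) * a ^ 9 * b ^ 6 * τ ^ 2 + (243 / 5) * a ^ 9 * b ^ 6 * τ * μ + (1701 / 5) * a ^ 9 * b ^ 6 * τ + (297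 / 5) * a ^ 9 * b ^ 6 * μ + (2511 / 5) * a ^ 9 * b ^ 6 - (324 / 25) * a ^ 8 * b ^ 7 * τ ^ 3 + (1296 / 25) * a ^ 8 * b ^ 7 * τ ^ 2 * μ + (324 / 25) * a ^ 8 * b ^ 7 * τ ^ 2 - (1134 / 25) * a ^ 8 * b ^ 7 * τ * μ - (3483 / 25) * a ^ 8 * b ^ 7 * τ - (4941 / 25) * a ^ 8 * b ^ 7 * μ - (1863 / 25) * a ^ 8 * b ^ 7 + (81 / 5) * a ^ 7 * b ^ 8 * τ ^ 3 * μ + (1296 / 25) * a ^ 7 * b ^ 8 * τ ^ 3 - (486 / 25) * a ^ 7 * b ^ 8 * τ ^ 2 * μ - (5346 / 25) * a ^ 7 * b ^ 8 * τ ^ 2 - (2916 / 25) * a ^ 7 * b ^ 8 * τ * μ - (22518 / 25) * a ^ 7 * b ^ 8 * τ + (486 / 25) * a ^ 7 * b ^ 8 * μ - (14823 / 25) * a ^ 7 * b ^ 8 - (486 / 25) * a ^ 6 * b ^ 9 * τ ^ 3 * μ - (486 / 25) * a ^ 6 * b ^ 9 * τ ^ 3 - (162 / 25) * a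 ^ 6 * b ^ 9 * τ ^ 2 * μ + (3726 / 25) * a ^ 6 * b ^ 9 * τ ^ 2 + (1377 / 5) * a ^ 6 * b ^ 9 * τ * μ + (17253 / 25) * a ^ 6 * b ^ 9 * τ + (6291 / 25) * a ^ 6 * b ^ 9 * μ + (5103 / 25) * a ^ 6 * b ^ 9 + (729 / 125) * a ^ 5 * b ^ 10 * τ ^ 3 * μ + 81 * a ^ 5 * b ^ 10 * τ ^ 3 + (10611 / 125) * a ^ 5 * b ^ 10 * τ ^ 2 * μ + 729 * a ^ 5 * b ^ 10 * τ ^ 2 - (4617 / 125) * a ^ 5 * b ^ 10 * τ * μ + 972 * a ^ 5 * b ^ 10 * τ - (18792 / 125) * a ^ 5 * b ^ 10 * μ + 567 * a ^ 5 * b ^ 10 - (81 / 5) * a ^ 4 * b ^ 11 * τ ^ 3 - (891 / 5) * a ^ 4 * b ^ 11 * τ ^ 2 * μ - (2349 / 5) * a ^ 4 * b ^ 11 * τ ^ 2 - (1701 / 5) * a ^ 4 * b ^ 11 * τ * μ - (2187 / 5) * a ^ 4 * b ^ 11 * τ - (729 / 5) * a ^ 4 * b ^ 11 * μ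 + (243 / 5) * a ^ 4 * b ^ 11 - 27 * a ^ 3 * b ^ 12 * τ ^ 3 * μ - (3726 / 25) * a ^ 3 * b ^ 12 * τ ^ 3 + (1134 / 25) * a ^ 3 * b ^ 12 * τ ^ 2 * μ - (6399 / 25) * a ^ 3 * b ^ 12 * τ ^ 2 + (5589 / 25) * a ^ 3 * b ^ 12 * τ * μ - (8667 / 25) * a ^ 3 * b ^ 12 * τ + (3861 / 25) * a ^ 3 * b ^ 12 * μ - (8262 / 25) * a ^ 3 * b ^ 12 + (243 / 5) * a ^ 2 * b ^ 13 * τ ^ 3 * μ + (3159 / 25) * a ^ 2 * b ^ 13 * τ ^ 3 + (3321 / 25) * a ^ 2 * b ^ 13 * τ ^ 2 * μ + (4941 / 25) * a ^ 2 * b ^ 13 * τ ^ 2 + (2511 / 25) * a ^ 2 * b ^ 13 * τ * μ - (972 / 25) * a ^ 2 * b ^ 13 * τ + (324 / 25) * a ^ 2 * b ^ 13 * μ - (2592 / 25) * a ^ 2 * b ^ 13 - (729 / 25) * a * b ^ 14 * τ ^ 3 * μ - (729 / 25) * a * b ^ 14 * τ ^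 3 - (2673 / 25) * a * b ^ 14 * τ ^ 2 * μ - (486 / 25) * a * b ^ 14 * τ ^ 2 - (648 / 5) * a * b ^ 14 * τ * μ + (2592 / 25) * a * b ^ 14 * τ - (1296 / 25) * a * b ^ 14 * μ + (2592 / 25) * a * b ^ 14 + (729 / 125) * b ^ 15 * τ ^ 3 * μ + (2916 / 125) * b ^ 15 * τ ^ 2 * μ + (3888 / 125) * b ^ 15 * τ * μ + (1728 / 125) * b ^ 15 * μ) * hμ

end Fermat.Agent.S52K.Klein56
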