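/-
Programme K (S52, 3-5 switch), brick B0 (helper56): the explicit Klein data of `Klein56/Defs`
satisfy the hypotheses of brick B1 (`TorsBasis65.KleinPts`, helper65).

For a primitive fifth root of unity `ζ` of a field `k` of characteristic zero we put
`τ = ζ + ζ^4`, `μ = ζ^2 - ζ^3` and

* `Q(v) = N(v) = (xN v, yN v)` (rational coefficients),
* `R(v) = M(v) = (xM τ v, μ * ytM τ v)`,
* `T5 v = (ζ^3 v₁, ζ^2 v₂)`,
* `Sg v = (-μ⁻¹) • S' v`, `S' (a, b) = (-a + τ b, τ a + b)` (determinant `τ - 2 = μ^2`).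

Then `Q ∘ T5 = Q - R`, `R ∘ T5 = R`, `Q ∘ Sg = -R`, `R ∘ Sg = Q`.
-/
import Mathlib
import Fermat.Agent.S52K1B.TorsBasis65
import Fermat.Agent.S52K.Klein56.SIds
import Fermat.Agent.S52K.Klein56.SIdT
import Fermat.Agent.S52K.Klein56.TIds

set_option autoImplicit false
set_option linter.unusedSectionVars false

namespace Fermat.Agent.S52K.Klein56

variable {k : Type*} [Field k] [CharZero k]

/-- `τ = ζ + ζ^4`. -/
def tauOf (ζ : k) : k := ζ + ζ ^ 4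

/-- `μ = ζ^2 - ζ^3`. -/
def muOf (ζ : k) : k := ζ ^ 2 - ζ ^ 3

section relations

variable {ζ : k} (hζ : ζ ^ 4 + ζ ^ 3 + ζ ^ 2 + ζ + 1 = 0)
include hζ

theorem zeta_pow_five : ζ ^ 5 = 1 := by
  linear_combination (ζ - 1) * hζ

theorem tau_rel : tauOf ζ ^ 2 + tauOf ζ - 1 = 0 := by
  unfold tauOf
  linear_combination (ζ ^ 4 - ζ ^ 3 + 2 * ζ - 1) * hζ

theorem mu_rel : muOf ζ ^ 2 = tauOf ζ - 2 := by
  unfold tauOf muOf
  linear_combination (ζ ^ 2 - 3 * ζ + 2) * hζ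

theorem zeta_one : ζ = 1 / 2 * tauOf ζ * muOf ζ + 1 / 2 * tauOf ζ + 1 / 2 * muOf ζ := by
  unfold tauOf muOf
  linear_combination ((1 / 2) * ζ ^ 3 - ζ ^ 2 + (1 / 2) * ζ) * hζ

theorem zeta_two : ζ ^ 2 = -(1 / 2) * tauOf ζ + 1 / 2 * muOf ζ - 1 / 2 := by
  unfold tauOf muOf
  linear_combination (1 / 2) * hζ

theorem zeta_three : ζ ^ 3 = -(1 / 2) * tauOf ζ - 1 / 2 * muOf ζ - 1 / 2 := by
  unfold tauOf muOf
  linear_combination (1 / 2) * hζ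

theorem zeta_four : ζ ^ 4 = -(1 / 2) * tauOf ζ * muOf ζ + 1 / 2 * tauOf ζ - 1 / 2 * muOf ζ := by
  unfold tauOf muOf
  linear_combination (-(1 / 2) * ζ ^ 3 + ζ ^ 2 - (1 / 2) * ζ) * hζ

theorem tau_sub_two_ne_zero : tauOf ζ - 2 ≠ 0 := by
  intro h
  have h5 : (5 : k) = 0 := by
    have := tau_rel hζ
    have h2 : tauOf ζ = 2 := by linear_combination h
    rw [h2] at this
    linear_combination this
  exact (by norm_num : (5 : k) ≠ 0) h5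

theorem mu_ne_zero : muOf ζ ≠ 0 := by
  intro h
  have := mu_rel hζ
  rw [h] at this
  exact tau_sub_two_ne_zero hζ (by linear_combination -this)

/-- `ν = μ⁻¹` satisfies `ν^2 (τ - 2) = 1`. -/
theorem nu_sq : (muOf ζ)⁻¹ ^ 2 * (tauOf ζ - 2) = 1 := by
  rw [← mu_rel hζ, inv_pow, inv_mul_cancel₀ (pow_ne_zero 2 (mu_ne_zero hζ))]

theorem nu_mul_mu : (muOf ζ)⁻¹ * muOf ζ = 1 := inv_mul_cancel₀ (mu_ne_zero hζ)

end relations

/-- The generator `T5 = diag(ζ^3, ζ^2)`. -/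
def T5 (ζ : k) (v : k × k) : k × k := (ζ ^ 3 * v.1, ζ ^ 2 * v.2)

/-- The unnormalised generator `S' = [[-1, τ], [τ, 1]]` (determinant `τ - 2`). -/
def S' (τ : k) (v : k × k) : k × k := (-v.1 + τ * v.2, τ * v.1 + v.2)

/-- The generator `Sg = (-μ⁻¹) • S'` (determinant `1`). -/
def Sg (ζ : k) (v : k × k) : k × k :=
  (-(muOf ζ)⁻¹ * (-v.1 + tauOf ζ * v.2), -(muOf ζ)⁻¹ * (tauOf ζ * v.1 + v.2))

/-! ### Scaling bookkeeping -/

theorem pow_scale_even {ν t : k} (h : ν ^ 2 * t = 1) (n : ℕ) : (-ν) ^ (2 * n) * t ^ n = 1 := by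
  have : (-ν) ^ (2 * n) * t ^ n = (ν ^ 2 * t) ^ n := by
    rw [pow_mul, neg_sq, mul_pow]
  rw [this, h, one_pow]

section laws

variable {ζ : k} (hζ : ζ ^ 4 + ζ ^ 3 + ζ ^ 2 + ζ + 1 = 0)
include hζ

theorem kf_Sg (v : k × k) : kf (Sg ζ v).1 (Sg ζ v).2 = kf v.1 v.2 := by
  unfold Sg
  simp only
  rw [kf_smul, kf_S' _ _ _ (tau_rel hζ), ← mul_assoc]
  have e : (-(muOf ζ)⁻¹) ^ 12 * (tauOf ζ - 2) ^ 6 = 1 := pow_scale_even (nu_sq hζ) 6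
  rw [e, one_mul]

theorem kH_Sg (v : k × k) : kH (Sg ζ v).1 (Sg ζ v).2 = kH v.1 v.2 := by
  unfold Sg
  simp only
  rw [kH_smul, kH_S' _ _ _ (tau_rel hζ), ← mul_assoc]
  have e : (-(muOf ζ)⁻¹) ^ 20 * (tauOf ζ - 2) ^ 10 = 1 := pow_scale_even (nu_sq hζ) 10
  rw [e, one_mul]

theorem kT_Sg (v : k × k) : kT (Sg ζ v).1 (Sg ζ v).2 = kT v.1 v.2 := by
  unfold Sg
  simp only
  rw [kT_smul, kT_S' _ _ _ (tau_rel hζ), ← mul_assoc]
  have e : (-(muOf ζ)⁻¹) ^ 30 * (tauOf ζ - 2) ^ 15 = 1 := pow_scale_even (nu_sq hζ) 15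
  rw [e, one_mul]

theorem xN_Sg (v : k × k) : xN (Sg ζ v).1 (Sg ζ v).2 = xM (tauOf ζ) v.1 v.2 := by
  unfold Sg
  simp only
  rw [xN_smul, xN_S' _ _ _ (tau_rel hζ), ← mul_assoc]
  have e : (-(muOf ζ)⁻¹) ^ 10 * (tauOf ζ - 2) ^ 5 = 1 := pow_scale_even (nu_sq hζ) 5
  rw [e, one_mul]

theorem xM_Sg (v : k × k) : xM (tauOf ζ) (Sg ζ v).1 (Sg ζ v).2 = xN v.1 v.2 := by
  unfold Sg
  simp only
  rw [xM_smul, xM_S' _ _ _ (tau_rel hζ), ← mul_assoc]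
  have e : (-(muOf ζ)⁻¹) ^ 10 * (tauOf ζ - 2) ^ 5 = 1 := pow_scale_even (nu_sq hζ) 5
  rw [e, one_mul]

theorem yN_Sg (v : k × k) :
    yN (Sg ζ v).1 (Sg ζ v).2 = -(muOf ζ * ytM (tauOf ζ) v.1 v.2) := by
  unfold Sg
  simp only
  rw [yN_smul, yN_S' _ _ _ (tau_rel hζ)]
  have h1 := nu_sq hζ
  have h2 := nu_mul_mu hζ
  have h3 := mu_rel hζ
  generalize (muOf ζ)⁻¹ = ν at *
  generalize ytM (tauOf ζ) v.1 v.2 = Y
  have e7 : (ν ^ 2 * (tauOf ζ - 2)) ^ 7 = 1 := by rw [h1, one_pow]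
  -- (-ν)^15 (τ-2)^8 = -ν (τ-2) = -ν μ^2 = -μ
  have key : (-ν) ^ 15 * (tauOf ζ - 2) ^ 8 = -muOf ζ := by
    have : (-ν) ^ 15 * (tauOf ζ - 2) ^ 8 = -(ν * (tauOf ζ - 2)) * (ν ^ 2 * (tauOf ζ - 2)) ^ 7 := by
      ring
    rw [this, e7, mul_one, ← h3]
    linear_combination (-muOf ζ) * h2
  linear_combination Y * key

theorem ytM_Sg (v : k × k) :
    muOf ζ * ytM (tauOf ζ) (Sg ζ v).1 (Sg ζ v).2 = yN v.1 v.2 := by
  unfold Sg
  simp only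
  rw [ytM_smul, ytM_S' _ _ _ (tau_rel hζ)]
  have h1 := nu_sq hζ
  have h2 := nu_mul_mu hζ
  generalize (muOf ζ)⁻¹ = ν at *
  generalize yN v.1 v.2 = Y
  have e7 : (ν ^ 2 * (tauOf ζ - 2)) ^ 7 = 1 := by rw [h1, one_pow]
  have key : muOf ζ * ((-ν) ^ 15 * -((tauOf ζ - 2) ^ 7)) = 1 := by
    have : muOf ζ * ((-ν) ^ 15 * -((tauOf ζ - 2) ^ 7)) =
        (ν * muOf ζ) * (ν ^ 2 * (tauOf ζ - 2)) ^ 7 := by ring
    rw [this, e7, mul_one, h2]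
  linear_combination Y * key

/-- covariance of the symplectic gradient under `Sg`. -/
theorem g_Sg (v : k × k) :
    (g1 (Sg ζ v).1 (Sg ζ v).2, g2 (Sg ζ v).1 (Sg ζ v).2) = Sg ζ (g1 v.1 v.2, g2 v.1 v.2) := by
  unfold Sg
  simp only
  rw [g1_smul, g2_smul, g1_S' _ _ _ (tau_rel hζ), g2_S' _ _ _ (tau_rel hζ)]
  have h1 := nu_sq hζ
  generalize (muOf ζ)⁻¹ = ν at *
  have e5 : (ν ^ 2 * (tauOf ζ - 2)) ^ 5 = 1 := by rw [h1, one_pow]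
  have key : (-ν) ^ 11 * (tauOf ζ - 2) ^ 5 = -ν := by
    have : (-ν) ^ 11 * (tauOf ζ - 2) ^ 5 = -ν * (ν ^ 2 * (tauOf ζ - 2)) ^ 5 := by ring
    rw [this, e5, mul_one]
  ext
  · simp only
    linear_combination (-g1 v.1 v.2 + tauOf ζ * g2 v.1 v.2) * key
  · simp only
    linear_combination (tauOf ζ * g1 v.1 v.2 + g2 v.1 v.2) * key

/-- covariance of the symplectic gradient under `T5`. -/
theorem g_T5 (v : k × k) :
    (g1 (T5 ζ v).1 (T5 ζ v).2, g2 (T5 ζ v).1 (T5 ζ v).2) = T5 ζ (g1 v.1 v.2, g2 v.1 v.2) := by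
  unfold T5
  simp only
  rw [g1_T5 _ _ _ (zeta_pow_five hζ), g2_T5 _ _ _ (zeta_pow_five hζ)]

theorem kf_T5' (v : k × k) : kf (T5 ζ v).1 (T5 ζ v).2 = kf v.1 v.2 :=
  kf_T5 _ _ _ (zeta_pow_five hζ)

theorem T5_pow_five (v : k × k) : T5 ζ (T5 ζ (T5 ζ (T5 ζ (T5 ζ v)))) = v := by
  have h5 := zeta_pow_five hζ
  unfold T5
  ext
  · simp only
    linear_combination (v.1 * (ζ ^ 10 + ζ ^ 5 + 1)) * h5
  · simp only
    linear_combination (v.2 * (ζ ^ 5 + 1)) * h5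

end laws

/-- chord addition in cleared-denominator form from an explicit polynomial slope (x). -/
theorem addX_of_slope {xq xr yq yr xqt l : k} (h1 : l * (xq - xr) = yq + yr)
    (h2 : xqt = l ^ 2 - xq - xr) :
    xqt * (xq - xr) ^ 2 = (yq + yr) ^ 2 - (xq + xr) * (xq - xr) ^ 2 := by
  linear_combination (xq - xr) ^ 2 * h2 + (l * (xq - xr) + (yq + yr)) * h1

/-- chord addition in cleared-denominator form from an explicit polynomial slope (y). -/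
theorem addY_of_slope {xq xr yq yr xqt yqt l : k} (h1 : l * (xq - xr) = yq + yr)
    (h3 : yqt = -(l * (xqt - xq) + yq)) :
    yqt * (xq - xr) = -((yq + yr) * (xqt - xq) + yq * (xq - xr)) := by
  linear_combination (xq - xr) * h3 - (xqt - xq) * h1

/-- **The Klein data satisfy the hypotheses of brick B1.** -/
noncomputable def kleinPts (ζ : k) (hζ : ζ ^ 4 + ζ ^ 3 + ζ ^ 2 + ζ + 1 = 0) :
    TorsBasis65.KleinPts k where
  f v := kf v.1 v.2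
  H v := kH v.1 v.2
  T v := kT v.1 v.2
  XQ v := xN v.1 v.2
  YQ v := yN v.1 v.2
  XR v := xM (tauOf ζ) v.1 v.2
  YR v := muOf ζ * ytM (tauOf ζ) v.1 v.2
  L v := sepL (tauOf ζ) v.1 v.2
  c := 36
  T5 := T5 ζ
  S := Sg ζ
  six_ne := by norm_num
  c_ne := by norm_num
  syz v := syzygy v.1 v.2
  H_T5 v := kH_T5 _ _ _ (zeta_pow_five hζ)
  T_T5 v := kT_T5 _ _ _ (zeta_pow_five hζ)
  H_S v := kH_Sg hζ v
  T_S v := kT_Sg hζ v
  Q_on v := N_on v.1 v.2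
  R_on v := by
    have h1 := M_on v.1 v.2 (tauOf ζ) (tau_rel hζ)
    have h2 := mu_rel hζ
    linear_combination ytM (tauOf ζ) v.1 v.2 ^ 2 * h2 + h1
  XR_T5 v := xM_T5 _ _ _ _ (zeta_pow_five hζ)
  YR_T5 v := by
    show muOf ζ * ytM (tauOf ζ) (ζ ^ 3 * v.1) (ζ ^ 2 * v.2) = _
    rw [ytM_T5 _ _ _ _ (zeta_pow_five hζ)]
  add_X v := by
    have h1 := lam_slope v.1 v.2 (tauOf ζ) (muOf ζ) (tau_rel hζ) (mu_rel hζ)
    have h2 := xN_T5 v.1 v.2 (tauOf ζ) (muOf ζ) ζ (tau_rel hζ) (mu_rel hζ) (zeta_pow_five hζ)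
      (zeta_one hζ) (zeta_two hζ) (zeta_three hζ) (zeta_four hζ)
    exact addX_of_slope h1 h2
  add_Y v := by
    have h1 := lam_slope v.1 v.2 (tauOf ζ) (muOf ζ) (tau_rel hζ) (mu_rel hζ)
    have h2 := xN_T5 v.1 v.2 (tauOf ζ) (muOf ζ) ζ (tau_rel hζ) (mu_rel hζ) (zeta_pow_five hζ)
      (zeta_one hζ) (zeta_two hζ) (zeta_three hζ) (zeta_four hζ)
    have h3 := yN_T5 v.1 v.2 (tauOf ζ) (muOf ζ) ζ (tau_rel hζ) (mu_rel hζ) (zeta_pow_five hζ)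
      (zeta_one hζ) (zeta_two hζ) (zeta_three hζ) (zeta_four hζ)
    refine addY_of_slope h1 ?_
    show yN (ζ ^ 3 * v.1) (ζ ^ 2 * v.2) = _
    rw [h3]
    show _ = -(lam (tauOf ζ) (muOf ζ) v.1 v.2 * (xN (ζ ^ 3 * v.1) (ζ ^ 2 * v.2) - xN v.1 v.2) +
      yN v.1 v.2)
    rw [h2]
  T5_pow v := T5_pow_five hζ v
  XQ_S v := xN_Sg hζ v
  YQ_S v := yN_Sg hζ v
  XR_S v := xM_Sg hζ v
  YR_S v := ytM_Sg hζ v
  sep v := sep v.1 v.2 (tauOf ζ) (tau_rel hζ)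

end Fermat.Agent.S52K.Klein56
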