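/-
Programme K (S52, 3-5 switch), brick B0 (helper56): Galois conjugation of the coefficients of the
torsion point `M = R` multiplies `R` by a unit of `ℤ/5`.

The coordinates of `R` are `(xM τ, μ * ytM τ)` with `τ = tauOf ζ`, `μ = muOf ζ`.  Replacing `ζ` by
another primitive fifth root of unity `ζ₂ = ζ^j` replaces `(τ, μ)` by
`(τ, μ)`, `(τ', μ')`, `(τ', -μ')`, `(τ, -μ)` for `j = 1, 2, 3, 4`
(`τ' = -1 - τ`, `μ' = -(1 + τ) μ`), and the point by `R`, `2R`, `-2R`, `-R`.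
-/
import Mathlib
import Fermat.Agent.S52K1B.TorsBasis65
import Fermat.Agent.S52K.Klein56.Pts56
import Fermat.Agent.S52K.Klein56.GalIds

set_option autoImplicit false
set_option linter.unusedSectionVars false
set_option linter.unusedSimpArgs false

open WeierstrassCurve WeierstrassCurve.Affine

namespace Fermat.Agent.S52K.Klein56

open Fermat.Agent.S52K.TorsBasis65

variable {k : Type*} [Field k] [CharZero k] [DecidableEq k]

section

variable {ζ : k} (hζ : ζ ^ 4 + ζ ^ 3 + ζ ^ 2 + ζ + 1 = 0)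
include hζ

/-- the roots of the fifth cyclotomic polynomial are the powers of `ζ`. -/
theorem root_cases {x : k} (hx : x ^ 4 + x ^ 3 + x ^ 2 + x + 1 = 0) :
    x = ζ ∨ x = ζ ^ 2 ∨ x = ζ ^ 3 ∨ x = ζ ^ 4 := by
  have key : (x - ζ) * ((x - ζ ^ 2) * ((x - ζ ^ 3) * (x - ζ ^ 4))) = 0 := by
    linear_combination hx + (-x ^ 3 + x ^ 2 * ζ ^ 3 + x ^ 2 * ζ - x ^ 2 - x * ζ ^ 5 + x * ζ - x
      + ζ ^ 6 - ζ ^ 5 + ζ - 1) * hζ
  rcases mul_eq_zero.mp key with h | h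
  · exact Or.inl (sub_eq_zero.mp h)
  rcases mul_eq_zero.mp h with h | h
  · exact Or.inr (Or.inl (sub_eq_zero.mp h))
  rcases mul_eq_zero.mp h with h | h
  · exact Or.inr (Or.inr (Or.inl (sub_eq_zero.mp h)))
  · exact Or.inr (Or.inr (Or.inr (sub_eq_zero.mp h)))

theorem tauOf_sq : tauOf (ζ ^ 2) = -1 - tauOf ζ := by
  unfold tauOf
  linear_combination (ζ ^ 4 - ζ ^ 3 + 1) * hζ

theorem muOf_sq : muOf (ζ ^ 2) = -(1 + tauOf ζ) * muOf ζ := by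
  unfold tauOf muOf
  linear_combination (-ζ ^ 3 + ζ ^ 2) * hζ

theorem tauOf_cube : tauOf (ζ ^ 3) = -1 - tauOf ζ := by
  unfold tauOf
  linear_combination (ζ ^ 8 - ζ ^ 7 + ζ ^ 3 - ζ ^ 2 + 1) * hζ

theorem muOf_cube : muOf (ζ ^ 3) = -(-(1 + tauOf ζ) * muOf ζ) := by
  unfold tauOf muOf
  linear_combination (-ζ ^ 5 + ζ ^ 4 + ζ ^ 3 - ζ ^ 2) * hζ

theorem tauOf_four : tauOf (ζ ^ 4) = tauOf ζ := by
  unfold tauOf
  linear_combination (ζ ^ 12 - ζ ^ 11 + ζ ^ 7 - ζ ^ 6 + ζ ^ 2 - ζ) * hζ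

theorem muOf_four : muOf (ζ ^ 4) = -muOf ζ := by
  unfold muOf
  linear_combination (-ζ ^ 8 + ζ ^ 7 + ζ ^ 4 - 2 * ζ ^ 3 + ζ ^ 2) * hζ

/-! ### Points -/

theorem mem_Fib_self (u : k × k) :
    u ∈ (kleinPts ζ hζ).Fib (kH u.1 u.2) (kT u.1 u.2) := ⟨rfl, rfl⟩

/-- `-R` in coordinates. -/
theorem pt_neg_R (u : k × k) (hd : kT u.1 u.2 ^ 2 + kH u.1 u.2 ^ 3 ≠ 0) :
    pt (E (kH u.1 u.2) (kT u.1 u.2)) (xM (tauOf ζ) u.1 u.2) (-muOf ζ * ytM (tauOf ζ) u.1 u.2) =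
      -(kleinPts ζ hζ).Rp (kH u.1 u.2) (kT u.1 u.2) u := by
  have hw := mem_Fib_self hζ u
  have hns := KleinPts.nonsingular_R hw hd
  rw [KleinPts.Rp_eq hw hd, Point.neg_some]
  have hns' := (nonsingular_neg (W' := E (kH u.1 u.2) (kT u.1 u.2)) _ _).mpr hns
  rw [← pt_of hns', E_negY]
  show _ = pt _ (xM (tauOf ζ) u.1 u.2) (-(muOf ζ * ytM (tauOf ζ) u.1 u.2))
  rw [neg_mul]

/-- `2R` in coordinates: the conjugate `(τ', μ')`. -/
theorem pt_two_R (u : k × k) (hd : kT u.1 u.2 ^ 2 + kH u.1 u.2 ^ 3 ≠ 0) :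
    pt (E (kH u.1 u.2) (kT u.1 u.2)) (xM (-1 - tauOf ζ) u.1 u.2)
        (-(1 + tauOf ζ) * muOf ζ * ytM (-1 - tauOf ζ) u.1 u.2) =
      (2 : ℤ) • (kleinPts ζ hζ).Rp (kH u.1 u.2) (kT u.1 u.2) u := by
  have hw := mem_Fib_self hζ u
  have hns := KleinPts.nonsingular_R hw hd
  have hτ := tau_rel hζ
  have hμ := mu_rel hζ
  -- the conjugate point is on the curve
  have hns3 : (E (kH u.1 u.2) (kT u.1 u.2)).Nonsingular (xM (-1 - tauOf ζ) u.1 u.2)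
      (-(1 + tauOf ζ) * muOf ζ * ytM (-1 - tauOf ζ) u.1 u.2) := by
    rw [E_nonsingular (by norm_num) hd]
    have h1 := M_on u.1 u.2 (-1 - tauOf ζ) (tau_conj _ hτ)
    have h2 := mu_conj _ _ hτ hμ
    linear_combination ytM (-1 - tauOf ζ) u.1 u.2 ^ 2 * h2 + h1
  rw [pt_of hns3, two_zsmul, KleinPts.Rp_eq hw hd]
  symm
  have hy : (kleinPts ζ hζ).YR u ≠
      (E (kH u.1 u.2) (kT u.1 u.2)).negY ((kleinPts ζ hζ).XR u) ((kleinPts ζ hζ).YR u) := by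
    intro hy
    have h0 : (kleinPts ζ hζ).Rp (kH u.1 u.2) (kT u.1 u.2) u +
        (kleinPts ζ hζ).Rp (kH u.1 u.2) (kT u.1 u.2) u = 0 := by
      rw [KleinPts.Rp_eq hw hd]
      exact Point.add_self_of_Y_eq hy
    have h2 : (2 : ℤ) • (kleinPts ζ hζ).Rp (kH u.1 u.2) (kT u.1 u.2) u = 0 := by
      rw [two_zsmul]; exact h0
    have := (KleinPts.zsmul_Rp_eq_zero_iff hw hd 2).mp h2
    norm_num at this
  apply some_add_self_of_slope (ℓ := ldbl (tauOf ζ) (muOf ζ) u.1 u.2) hns hns3 hy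
  · rw [E_negY]
    have := dbl_slope u.1 u.2 (tauOf ζ) (muOf ζ) hτ hμ
    show ldbl (tauOf ζ) (muOf ζ) u.1 u.2 *
        (muOf ζ * ytM (tauOf ζ) u.1 u.2 - -(muOf ζ * ytM (tauOf ζ) u.1 u.2)) =
      3 * xM (tauOf ζ) u.1 u.2 ^ 2 + 2 * (E (kH u.1 u.2) (kT u.1 u.2)).a₂ * xM (tauOf ζ) u.1 u.2 +
        (E (kH u.1 u.2) (kT u.1 u.2)).a₄ -
        (E (kH u.1 u.2) (kT u.1 u.2)).a₁ * (muOf ζ * ytM (tauOf ζ) u.1 u.2)
    rw [E_a₁, E_a₂, E_a₄]
    linear_combination this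
  · rw [E_addX]
    have := dbl_x u.1 u.2 (tauOf ζ) (muOf ζ) hτ hμ
    show xM (-1 - tauOf ζ) u.1 u.2 = ldbl (tauOf ζ) (muOf ζ) u.1 u.2 ^ 2 -
      xM (tauOf ζ) u.1 u.2 - xM (tauOf ζ) u.1 u.2
    linear_combination this
  · rw [E_addY]
    have h1 := dbl_x u.1 u.2 (tauOf ζ) (muOf ζ) hτ hμ
    have h2 := dbl_y u.1 u.2 (tauOf ζ) (muOf ζ) hτ hμ
    show -(1 + tauOf ζ) * muOf ζ * ytM (-1 - tauOf ζ) u.1 u.2 =
      -(ldbl (tauOf ζ) (muOf ζ) u.1 u.2 * (ldbl (tauOf ζ) (muOf ζ) u.1 u.2 ^ 2 -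
        xM (tauOf ζ) u.1 u.2 - xM (tauOf ζ) u.1 u.2 - xM (tauOf ζ) u.1 u.2) +
        muOf ζ * ytM (tauOf ζ) u.1 u.2)
    linear_combination h2 - ldbl (tauOf ζ) (muOf ζ) u.1 u.2 * h1

/-- `-2R` in coordinates: the conjugate `(τ', -μ')`. -/
theorem pt_neg_two_R (u : k × k) (hd : kT u.1 u.2 ^ 2 + kH u.1 u.2 ^ 3 ≠ 0) :
    pt (E (kH u.1 u.2) (kT u.1 u.2)) (xM (-1 - tauOf ζ) u.1 u.2)
        (-(-(1 + tauOf ζ) * muOf ζ) * ytM (-1 - tauOf ζ) u.1 u.2) =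
      (-2 : ℤ) • (kleinPts ζ hζ).Rp (kH u.1 u.2) (kT u.1 u.2) u := by
  have h2 := pt_two_R hζ u hd
  have hτ := tau_rel hζ
  have hμ := mu_rel hζ
  have hns3 : (E (kH u.1 u.2) (kT u.1 u.2)).Nonsingular (xM (-1 - tauOf ζ) u.1 u.2)
      (-(1 + tauOf ζ) * muOf ζ * ytM (-1 - tauOf ζ) u.1 u.2) := by
    rw [E_nonsingular (by norm_num) hd]
    have h1 := M_on u.1 u.2 (-1 - tauOf ζ) (tau_conj _ hτ)
    have h2 := mu_conj _ _ hτ hμ
    linear_combination ytM (-1 - tauOf ζ) u.1 u.2 ^ 2 * h2 + h1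
  rw [neg_smul, ← h2, pt_of hns3, Point.neg_some]
  have hns' := (nonsingular_neg (W' := E (kH u.1 u.2) (kT u.1 u.2)) _ _).mpr hns3
  rw [← pt_of hns', E_negY, neg_mul]

/-- **Galois conjugation of `R`.**  For every primitive fifth root of unity `ζ₂` there is a unit
`e` of `ℤ/5` such that the point with the `ζ₂`-conjugate coordinates is `e • R`. -/
theorem conj_point {ζ₂ : k} (h₂ : ζ₂ ^ 4 + ζ₂ ^ 3 + ζ₂ ^ 2 + ζ₂ + 1 = 0) :
    ∃ e : ℤ, (e = 1 ∨ e = 2 ∨ e = -2 ∨ e = -1) ∧ ∀ u : k × k,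
      kT u.1 u.2 ^ 2 + kH u.1 u.2 ^ 3 ≠ 0 →
      pt (E (kH u.1 u.2) (kT u.1 u.2)) (xM (tauOf ζ₂) u.1 u.2)
          (muOf ζ₂ * ytM (tauOf ζ₂) u.1 u.2) =
        e • (kleinPts ζ hζ).Rp (kH u.1 u.2) (kT u.1 u.2) u := by
  rcases root_cases hζ h₂ with rfl | rfl | rfl | rfl
  · refine ⟨1, Or.inl rfl, fun u hd => ?_⟩
    rw [one_zsmul]
    rfl
  · refine ⟨2, Or.inr (Or.inl rfl), fun u hd => ?_⟩
    rw [tauOf_sq hζ, muOf_sq hζ]
    exact pt_two_R hζ u hd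
  · refine ⟨-2, Or.inr (Or.inr (Or.inl rfl)), fun u hd => ?_⟩
    rw [tauOf_cube hζ, muOf_cube hζ]
    exact pt_neg_two_R hζ u hd
  · refine ⟨-1, Or.inr (Or.inr (Or.inr rfl)), fun u hd => ?_⟩
    rw [tauOf_four hζ, muOf_four hζ, neg_one_zsmul]
    exact pt_neg_R hζ u hd

end

/-! ### Compatibility with ring homomorphisms (rational coefficients) -/

section maps

variable {k' : Type*} [Field k'] [CharZero k'] (φ : k →+* k')

theorem map_kf (a b : k) : φ (kf a b) = kf (φ a) (φ b) := by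
  simp only [kf, map_add, map_sub, map_mul, map_pow, map_neg, map_ofNat]

theorem map_kH (a b : k) : φ (kH a b) = kH (φ a) (φ b) := by
  simp only [kH, map_add, map_sub, map_mul, map_pow, map_neg, map_ofNat]

theorem map_kT (a b : k) : φ (kT a b) = kT (φ a) (φ b) := by
  simp only [kT, map_add, map_sub, map_mul, map_pow, map_neg, map_ofNat]

theorem map_xN (a b : k) : φ (xN a b) = xN (φ a) (φ b) := by
  simp only [xN, map_add, map_sub, map_mul, map_pow, map_neg, map_ofNat]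

theorem map_yN (a b : k) : φ (yN a b) = yN (φ a) (φ b) := by
  simp only [yN, map_add, map_sub, map_mul, map_pow, map_neg, map_ofNat]

theorem map_g1 (a b : k) : φ (g1 a b) = g1 (φ a) (φ b) := by
  simp only [g1, map_add, map_sub, map_mul, map_pow, map_neg, map_ofNat]

theorem map_g2 (a b : k) : φ (g2 a b) = g2 (φ a) (φ b) := by
  simp only [g2, map_add, map_sub, map_mul, map_pow, map_neg, map_ofNat]

theorem map_xM (τ a b : k) : φ (xM τ a b) = xM (φ τ) (φ a) (φ b) := by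
  simp only [xM, map_add, map_sub, map_mul, map_pow, map_neg, map_ofNat, map_div₀]

theorem map_ytM (τ a b : k) : φ (ytM τ a b) = ytM (φ τ) (φ a) (φ b) := by
  simp only [ytM, map_add, map_sub, map_mul, map_pow, map_neg, map_ofNat, map_div₀]

theorem map_tauOf (ζ : k) : φ (tauOf ζ) = tauOf (φ ζ) := by
  simp only [tauOf, map_add, map_pow]

theorem map_muOf (ζ : k) : φ (muOf ζ) = muOf (φ ζ) := by
  simp only [muOf, map_sub, map_pow]

end maps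

end Fermat.Agent.S52K.Klein56
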