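/-
Programme K (S52, 3-5 switch) (helper56): completion of the instantiation of `S52K3.KleinData`
with the explicit Klein data: the fields `fiveQ`, `fiveR`, `indep`, `galR` of `LawComp.PreKlein.Rest`
for `Inst56.pre`, by transport from brick B1 (`TorsBasis65`, applied to `Klein56.kleinPts`) and from
`Klein56.conj_point`.  Final outputs:

* `rest56 ζ hζ : (pre (Par.ofPrimitiveRoot ζ hζ)).Rest`,
* `D56 ζ hζ : KleinData`, `fibres56 : (D56 ζ hζ).Fibres`, `ext56 : (D56 ζ hζ).Ext`,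
* the bridge lemmas `D56_H`, `D56_T`, `D56_f`, `D56_g`, `D56_ζ`.
-/
import Mathlib
import Fermat.Prelude.Def_FLTPrelim_GaloisRep
import Fermat.Agent.S52Top.Inst56
import Fermat.Agent.S52K.Klein56.Gal56
import Fermat.Agent.S52K2.Gens56
import Fermat.Agent.S52K3.IfaceExt

set_option autoImplicit false
set_option linter.unusedSectionVars false

open WeierstrassCurve WeierstrassCurve.Affine

namespace Fermat.Agent.S52K.Klein56.Rest56

open Fermat.Agent.S52K3 Fermat.Agent.S52Top.LawComp Fermat.Agent.S52Top.LawComp.PreKlein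
open Fermat.Agent.S52Top.Inst56 Fermat.Agent.S52K.Klein56 Fermat.Agent.S52K.TorsBasis65

/-! ### Generic transport along an equality of curves -/

theorem nsmul_transport {W W' : Affine Qb} (hW : W = W') {x y : Qb} (ns : W.Nonsingular x y)
    (ns' : W'.Nonsingular x y) (n : ℕ) (h : n • (Point.some x y ns' : W'.Point) = 0) :
    n • (Point.some x y ns : W.Point) = 0 := by
  subst hW
  exact h

theorem indep_transport {W W' : Affine Qb} (hW : W = W') {x₁ y₁ x₂ y₂ : Qb}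
    (n₁ : W.Nonsingular x₁ y₁) (n₁' : W'.Nonsingular x₁ y₁)
    (n₂ : W.Nonsingular x₂ y₂) (n₂' : W'.Nonsingular x₂ y₂) (a b : ℤ)
    (h : a • (Point.some x₁ y₁ n₁ : W.Point) + b • (Point.some x₂ y₂ n₂ : W.Point) = 0) :
    a • (Point.some x₁ y₁ n₁' : W'.Point) + b • (Point.some x₂ y₂ n₂' : W'.Point) = 0 := by
  subst hW
  exact h

theorem ptEq_zsmul_transport {W W' : Affine Qb} (hW : W = W') {x y x₀ y₀ : Qb} (e : ℤ)
    (n₀ : W.Nonsingular x₀ y₀) (n₀' : W'.Nonsingular x₀ y₀) (n' : W'.Nonsingular x y)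
    (h : (Point.some x y n' : W'.Point) = e • Point.some x₀ y₀ n₀') :
    PtEq W x y (e • Point.some x₀ y₀ n₀) := by
  subst hW
  exact ⟨n', h⟩

/-! ### The concrete situation -/

section

variable (ζ : Qb) (hζ : IsPrimitiveRoot ζ 5)
include hζ

theorem phi5 : ζ ^ 4 + ζ ^ 3 + ζ ^ 2 + ζ + 1 = 0 := by
  have := hζ.geom_sum_eq_zero (by norm_num)
  simp only [Finset.sum_range_succ, Finset.sum_range_zero] at this
  linear_combination this

/-- the Iface curve of `pre` is the B1 curve. -/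
theorem curve_eq (v : V2) :
    kleinCurve ((pre (Par.ofPrimitiveRoot ζ hζ)).H v) ((pre (Par.ofPrimitiveRoot ζ hζ)).T v) =
      E (kH v.1 v.2) (kT v.1 v.2) := by
  unfold kleinCurve E
  simp only [pre_H, pre_T]
  congr 1
  ring

theorem disc_ne {v : V2} (hv : kf v.1 v.2 ≠ 0) : kT v.1 v.2 ^ 2 + kH v.1 v.2 ^ 3 ≠ 0 := by
  rw [syzygy]
  exact mul_ne_zero (by norm_num) (pow_ne_zero _ hv)

theorem mem_Fib (v : V2) : v ∈ (kleinPts ζ (phi5 ζ hζ)).Fib (kH v.1 v.2) (kT v.1 v.2) :=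
  ⟨rfl, rfl⟩

theorem fiveQ (v : V2) (hv : (pre (Par.ofPrimitiveRoot ζ hζ)).f v ≠ 0) :
    (5 : ℕ) • (Point.some ((pre (Par.ofPrimitiveRoot ζ hζ)).xQ v)
      ((pre (Par.ofPrimitiveRoot ζ hζ)).yQ v) ((pre (Par.ofPrimitiveRoot ζ hζ)).nonsingQ v hv) :
      (kleinCurve ((pre (Par.ofPrimitiveRoot ζ hζ)).H v)
        ((pre (Par.ofPrimitiveRoot ζ hζ)).T v)).Point) = 0 := by
  have hd := disc_ne ζ hζ hv
  have hw := mem_Fib ζ hζ v
  have h5 := KleinPts.five_nsmul_Qp hw hd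
  rw [KleinPts.Qp_eq hw hd] at h5
  exact nsmul_transport (curve_eq ζ hζ v) _ _ 5 h5

theorem fiveR (v : V2) (hv : (pre (Par.ofPrimitiveRoot ζ hζ)).f v ≠ 0) :
    (5 : ℕ) • (Point.some ((pre (Par.ofPrimitiveRoot ζ hζ)).xR v)
      ((pre (Par.ofPrimitiveRoot ζ hζ)).yR v) ((pre (Par.ofPrimitiveRoot ζ hζ)).nonsingR v hv) :
      (kleinCurve ((pre (Par.ofPrimitiveRoot ζ hζ)).H v)
        ((pre (Par.ofPrimitiveRoot ζ hζ)).T v)).Point) = 0 := by
  have hd := disc_ne ζ hζ hv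
  have hw := mem_Fib ζ hζ v
  have h5 := KleinPts.five_nsmul_Rp hw hd
  rw [KleinPts.Rp_eq hw hd] at h5
  exact nsmul_transport (curve_eq ζ hζ v) _ _ 5 h5

theorem indep (v : V2) (hv : (pre (Par.ofPrimitiveRoot ζ hζ)).f v ≠ 0) (a b : ℤ)
    (h : a • (Point.some ((pre (Par.ofPrimitiveRoot ζ hζ)).xQ v)
        ((pre (Par.ofPrimitiveRoot ζ hζ)).yQ v) ((pre (Par.ofPrimitiveRoot ζ hζ)).nonsingQ v hv) :
        (kleinCurve ((pre (Par.ofPrimitiveRoot ζ hζ)).H v)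
          ((pre (Par.ofPrimitiveRoot ζ hζ)).T v)).Point) +
      b • (Point.some ((pre (Par.ofPrimitiveRoot ζ hζ)).xR v)
        ((pre (Par.ofPrimitiveRoot ζ hζ)).yR v) ((pre (Par.ofPrimitiveRoot ζ hζ)).nonsingR v hv) :
        (kleinCurve ((pre (Par.ofPrimitiveRoot ζ hζ)).H v)
          ((pre (Par.ofPrimitiveRoot ζ hζ)).T v)).Point) = 0) :
    (5 : ℤ) ∣ a ∧ (5 : ℤ) ∣ b := by
  have hd := disc_ne ζ hζ hv
  have hw := mem_Fib ζ hζ v
  have h' := indep_transport (curve_eq ζ hζ v) _ (KleinPts.nonsingular_Q hw hd) _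
    (KleinPts.nonsingular_R hw hd) a b h
  rw [← KleinPts.Qp_eq hw hd, ← KleinPts.Rp_eq hw hd] at h'
  exact KleinPts.indep hw hd h'

theorem galR (σ : GQ) : ∃ e : ℤ, ∀ (v : V2)
    (hv : (pre (Par.ofPrimitiveRoot ζ hζ)).f (gal σ v) ≠ 0),
    PtEq (kleinCurve ((pre (Par.ofPrimitiveRoot ζ hζ)).H (gal σ v))
        ((pre (Par.ofPrimitiveRoot ζ hζ)).T (gal σ v)))
      (σ ((pre (Par.ofPrimitiveRoot ζ hζ)).xR v)) (σ ((pre (Par.ofPrimitiveRoot ζ hζ)).yR v))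
      (e • (Point.some ((pre (Par.ofPrimitiveRoot ζ hζ)).xR (gal σ v))
        ((pre (Par.ofPrimitiveRoot ζ hζ)).yR (gal σ v))
        ((pre (Par.ofPrimitiveRoot ζ hζ)).nonsingR (gal σ v) hv))) := by
  have hΦ := phi5 ζ hζ
  have h₂ : (σ ζ) ^ 4 + (σ ζ) ^ 3 + (σ ζ) ^ 2 + σ ζ + 1 = 0 := by
    have := congrArg σ hΦ
    simpa only [map_add, map_pow, map_one, map_zero] using this
  obtain ⟨e, -, he⟩ := conj_point hΦ h₂
  refine ⟨e, fun v hv => ?_⟩
  have hd := disc_ne ζ hζ hv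
  have hw := mem_Fib ζ hζ (gal σ v)
  have hpt := he (gal σ v) hd
  -- the conjugate point is on the curve
  have hns : (E (kH (gal σ v).1 (gal σ v).2) (kT (gal σ v).1 (gal σ v).2)).Nonsingular
      (xM (tauOf (σ ζ)) (gal σ v).1 (gal σ v).2)
      (muOf (σ ζ) * ytM (tauOf (σ ζ)) (gal σ v).1 (gal σ v).2) := by
    rw [E_nonsingular (by norm_num) hd]
    exact (kleinPts (σ ζ) h₂).R_on (gal σ v)
  rw [pt_of hns, KleinPts.Rp_eq hw hd] at hpt
  have ex : σ ((pre (Par.ofPrimitiveRoot ζ hζ)).xR v) =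
      xM (tauOf (σ ζ)) (gal σ v).1 (gal σ v).2 := by
    rw [gal_xR]
    simp only [Par.ofPrimitiveRoot_τ, tauOf, map_add, map_pow]
    rfl
  have ey : σ ((pre (Par.ofPrimitiveRoot ζ hζ)).yR v) =
      muOf (σ ζ) * ytM (tauOf (σ ζ)) (gal σ v).1 (gal σ v).2 := by
    rw [gal_yR]
    simp only [Par.ofPrimitiveRoot_τ, Par.ofPrimitiveRoot_μ, tauOf, muOf, map_add, map_sub,
      map_pow]
    rfl
  rw [ex, ey]
  exact ptEq_zsmul_transport (curve_eq ζ hζ (gal σ v)) e _ _ hns hpt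

/-- **The completion of the explicit data.** -/
noncomputable def rest56 : (pre (Par.ofPrimitiveRoot ζ hζ)).Rest where
  ζ := ζ
  gal_H := gal_H _
  gal_T := gal_T _
  gal_g := gal_g _
  gal_xQ := gal_xQ _
  gal_yQ := gal_yQ _
  scal_H := scal_H (Par.ofPrimitiveRoot ζ hζ)
  scal_T := scal_T (Par.ofPrimitiveRoot ζ hζ)
  scal_g := scal_g (Par.ofPrimitiveRoot ζ hζ)
  scal_xQ := scal_xQ (Par.ofPrimitiveRoot ζ hζ)
  scal_yQ := scal_yQ (Par.ofPrimitiveRoot ζ hζ)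
  scal_xR := scal_xR (Par.ofPrimitiveRoot ζ hζ)
  scal_yR := scal_yR (Par.ofPrimitiveRoot ζ hζ)
  fiveQ := fiveQ ζ hζ
  fiveR := fiveR ζ hζ
  indep := indep ζ hζ
  galR := galR ζ hζ

/-- **The explicit `KleinData`.** -/
noncomputable def D56 : KleinData := toKleinData (rest56 ζ hζ)

theorem D56_ζ : (D56 ζ hζ).ζ = ζ := rfl
theorem D56_ζ_pow : (D56 ζ hζ).ζ ^ 5 = 1 := hζ.pow_eq_one
theorem D56_H (v : V2) : (D56 ζ hζ).H v = kH v.1 v.2 := rfl
theorem D56_T (v : V2) : (D56 ζ hζ).T v = -kT v.1 v.2 := rfl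
theorem D56_f (v : V2) : (D56 ζ hζ).f v = kf v.1 v.2 := rfl
theorem D56_g (v : V2) : (D56 ζ hζ).g v = (g1 v.1 v.2, g2 v.1 v.2) := rfl

/-- **K2 for the explicit data.** -/
theorem fibres56 : (D56 ζ hζ).Fibres :=
  Fermat.Agent.S52K2.Gens56.fibres56 (Par.ofPrimitiveRoot ζ hζ) (rest56 ζ hζ) hζ

/-- **The extra facts needed by K5.** -/
theorem ext56 : (D56 ζ hζ).Ext := by
  refine Fermat.Agent.S52K2.Gens56.ext56 (Par.ofPrimitiveRoot ζ hζ) (rest56 ζ hζ) hζ ?_ ?_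
  · intro γ hγ
    exact toKleinData_law_det_dvd (rest56 ζ hζ) γ hγ
  · intro σ hσ v
    have hσ' : σ ζ = ζ := hσ
    constructor
    · show σ ((pre (Par.ofPrimitiveRoot ζ hζ)).xR v) = (pre (Par.ofPrimitiveRoot ζ hζ)).xR (gal σ v)
      rw [gal_xR]
      simp only [Par.ofPrimitiveRoot_τ, map_add, map_pow, hσ', pre_xR]
      rfl
    · show σ ((pre (Par.ofPrimitiveRoot ζ hζ)).yR v) = (pre (Par.ofPrimitiveRoot ζ hζ)).yR (gal σ v)
      rw [gal_yR]
      simp only [Par.ofPrimitiveRoot_τ, Par.ofPrimitiveRoot_μ, map_add, map_sub, map_pow, hσ',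
        pre_yR]
      rfl

end

/-- A primitive fifth root of unity in `ℚ̄`. -/
theorem exists_primitiveRoot : ∃ ζ : Qb, IsPrimitiveRoot ζ 5 := by
  have : NeZero ((5 : ℕ) : Qb) := ⟨by norm_num⟩
  exact HasEnoughRootsOfUnity.exists_primitiveRoot Qb 5

end Fermat.Agent.S52K.Klein56.Rest56
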